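/-
Row 37 (S43), block OPS (architect helper297), sub-block REL: THE MATRIX SIDE, part 1 (helper184).
Pure lemmas on integral `2 × 2` matrices.
* `mem_H1_iff'`   : `γ ∈ H1 q M ↔ q M ∣ c ∧ d = ± 1 mod q`;
* `exists_T_rep`  : an integral matrix of determinant `l` (prime, `l ∤ N`) with `N ∣ c` is
                    `δ (1 j; 0 l)` or `δ (l 0; 0 1)` with `δ ∈ Γ₀(N)`;
* `exists_U_rep`  : an integral matrix of determinant `q` with `q ∣ c`, `a` prime to `q` is `δ (1 j; 0 q)`;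
* `conjW`         : conjugation by an Atkin-Lehner matrix `W = (q x, y; q M z, q t)`, `det W = q`:
                    `W A adj(W) = q B` with `q M ∣ c(B)`, `d(B) = a(A)`, `a(B) = d(A)` mod `q`.
-/
import Fermat.Agent.S48.BB.H.Defs

set_option autoImplicit false

namespace Fermat.Agent.S43.Ops.Rel

open CongruenceSubgroup Matrix.SpecialLinearGroup
open Fermat.Agent.S48.A Fermat.Agent.S48.BB Fermat.Agent.S48.BB.H
open scoped MatrixGroups

/-- integral `2 × 2` matrices -/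
abbrev IM := Matrix (Fin 2) (Fin 2) ℤ

theorem mem_Gamma0_iff_dvd {N : ℕ} {γ : SL(2, ℤ)} : γ ∈ Gamma0 N ↔ (N : ℤ) ∣ γ 1 0 := by
  rw [Gamma0_mem, ZMod.intCast_zmod_eq_zero_iff_dvd]

theorem mem_H1_iff' {q M : ℕ} {γ : SL(2, ℤ)} :
    γ ∈ H1 q M ↔ ((q * M : ℕ) : ℤ) ∣ γ 1 0 ∧ (dd q γ = 1 ∨ dd q γ = -1) := by
  rw [H1, Subgroup.mem_inf, pmGamma1_eq, mem_pmSub, mem_Gamma0_iff_dvd, mem_Gamma0_iff_dvd]
  constructor
  · rintro ⟨⟨-, h⟩, h'⟩
    exact ⟨h', h⟩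
  · rintro ⟨h', h⟩
    refine ⟨⟨?_, h⟩, h'⟩
    refine dvd_trans ?_ h'
    push_cast
    exact Dvd.intro _ rfl

theorem neg_one_mem_H1' (q M : ℕ) : (-1 : SL(2, ℤ)) ∈ H1 q M := by
  rw [mem_H1_iff']
  refine ⟨by simp, Or.inr dd_neg_one⟩

/-! ### multiplicativity of the diagonal entries modulo `q` -/

theorem dvd_mul_10 {N : ℕ} {A B : IM} (hA : (N : ℤ) ∣ A 1 0) (hB : (N : ℤ) ∣ B 1 0) :
    (N : ℤ) ∣ (A * B) 1 0 := by
  rw [Matrix.mul_apply, Fin.sum_univ_two]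
  exact dvd_add (Dvd.dvd.mul_right hA _) (Dvd.dvd.mul_left hB _)

theorem cast_mul_11 {q : ℕ} {A B : IM} (hA : (q : ℤ) ∣ A 1 0) :
    (((A * B) 1 1 : ℤ) : ZMod q) = ((A 1 1 : ℤ) : ZMod q) * ((B 1 1 : ℤ) : ZMod q) := by
  rw [Matrix.mul_apply, Fin.sum_univ_two]
  push_cast
  rw [(ZMod.intCast_zmod_eq_zero_iff_dvd _ _).2 hA, zero_mul, zero_add]

theorem cast_mul_00 {q : ℕ} {A B : IM} (hB : (q : ℤ) ∣ B 1 0) :
    (((A * B) 0 0 : ℤ) : ZMod q) = ((A 0 0 : ℤ) : ZMod q) * ((B 0 0 : ℤ) : ZMod q) := by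
  rw [Matrix.mul_apply, Fin.sum_univ_two]
  push_cast
  rw [(ZMod.intCast_zmod_eq_zero_iff_dvd _ _).2 hB, mul_zero, add_zero]

theorem cast_00_mul_11 {q : ℕ} {A : IM} (hA : (q : ℤ) ∣ A 1 0) :
    ((A 0 0 : ℤ) : ZMod q) * ((A 1 1 : ℤ) : ZMod q) = ((A.det : ℤ) : ZMod q) := by
  rw [Matrix.det_fin_two]
  push_cast
  rw [(ZMod.intCast_zmod_eq_zero_iff_dvd _ _).2 hA, mul_zero, sub_zero]

/-! ### classification of the matrices of determinant `l` -/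

theorem exists_T_rep {l N : ℕ} (hl : l.Prime) (hlN : ¬ l ∣ N) (A : IM) (hdet : A.det = l)
    (hA : (N : ℤ) ∣ A 1 0) :
    (∃ (j : ZMod l) (δ : SL(2, ℤ)), (N : ℤ) ∣ δ 1 0 ∧ A = δ.1 * !![1, (j.val : ℤ); 0, (l : ℤ)]) ∨
      (∃ δ : SL(2, ℤ), (N : ℤ) ∣ δ 1 0 ∧ A = δ.1 * !![(l : ℤ), 0; 0, 1]) := by
  have : Fact l.Prime := ⟨hl⟩
  have hl0 : (l : ℤ) ≠ 0 := by exact_mod_cast hl.ne_zero
  have hdet' : A 0 0 * A 1 1 - A 0 1 * A 1 0 = l := by rw [← hdet, Matrix.det_fin_two]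
  by_cases h : (l : ℤ) ∣ A 0 0 ∧ (l : ℤ) ∣ A 1 0
  · right
    obtain ⟨⟨a', ha'⟩, ⟨c', hc'⟩⟩ := h
    have h1 : a' * A 1 1 - A 0 1 * c' = 1 := by
      apply mul_left_cancel₀ hl0
      rw [ha', hc'] at hdet'
      linear_combination hdet'
    refine ⟨⟨!![a', A 0 1; c', A 1 1], by rw [Matrix.det_fin_two_of]; exact h1⟩, ?_, ?_⟩
    · show (N : ℤ) ∣ c'
      have hcop : IsCoprime (N : ℤ) (l : ℤ) :=
        Nat.isCoprime_iff_coprime.2 ((Nat.Prime.coprime_iff_not_dvd hl).2 hlN).symm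
      rw [hc'] at hA
      exact hcop.dvd_of_dvd_mul_left hA
    · show A = !![a', A 0 1; c', A 1 1] * !![(l : ℤ), 0; 0, 1]
      ext i k
      fin_cases i <;> fin_cases k <;> simp [Matrix.mul_apply, Fin.sum_univ_two, ha', hc', mul_comm]
  · left
    have hdl : ((A 0 0 : ℤ) : ZMod l) * ((A 1 1 : ℤ) : ZMod l)
        - ((A 0 1 : ℤ) : ZMod l) * ((A 1 0 : ℤ) : ZMod l) = 0 := by
      have := congrArg (Int.cast : ℤ → ZMod l) hdet'
      push_cast at this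
      simpa using this
    obtain ⟨j, hj1, hj2⟩ : ∃ j : ZMod l, ((A 0 1 : ℤ) : ZMod l) = ((A 0 0 : ℤ) : ZMod l) * j ∧
        ((A 1 1 : ℤ) : ZMod l) = ((A 1 0 : ℤ) : ZMod l) * j := by
      by_cases ha : ((A 0 0 : ℤ) : ZMod l) = 0
      · have hc : ((A 1 0 : ℤ) : ZMod l) ≠ 0 := by
          intro hc
          exact h ⟨(ZMod.intCast_zmod_eq_zero_iff_dvd _ _).1 ha,
            (ZMod.intCast_zmod_eq_zero_iff_dvd _ _).1 hc⟩
        refine ⟨((A 1 1 : ℤ) : ZMod l) / ((A 1 0 : ℤ) : ZMod l), ?_, ?_⟩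
        · rw [ha, zero_mul]
          rw [ha, zero_mul, zero_sub, neg_eq_zero] at hdl
          exact (mul_eq_zero.1 hdl).resolve_right hc
        · rw [mul_div_cancel₀ _ hc]
      · refine ⟨((A 0 1 : ℤ) : ZMod l) / ((A 0 0 : ℤ) : ZMod l), ?_, ?_⟩
        · rw [mul_div_cancel₀ _ ha]
        · field_simp
          linear_combination hdl
    obtain ⟨b', hb'⟩ : (l : ℤ) ∣ A 0 1 - A 0 0 * (j.val : ℤ) := by
      rw [← ZMod.intCast_zmod_eq_zero_iff_dvd]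
      push_cast
      rw [ZMod.natCast_zmod_val, hj1, sub_self]
    obtain ⟨d', hd'⟩ : (l : ℤ) ∣ A 1 1 - A 1 0 * (j.val : ℤ) := by
      rw [← ZMod.intCast_zmod_eq_zero_iff_dvd]
      push_cast
      rw [ZMod.natCast_zmod_val, hj2, sub_self]
    have h1 : A 0 0 * d' - b' * A 1 0 = 1 := by
      apply mul_left_cancel₀ hl0
      linear_combination hdet' - A 0 0 * hd' + A 1 0 * hb'
    refine ⟨j, ⟨!![A 0 0, b'; A 1 0, d'], by rw [Matrix.det_fin_two_of]; exact h1⟩, hA, ?_⟩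
    show A = !![A 0 0, b'; A 1 0, d'] * !![1, (j.val : ℤ); 0, (l : ℤ)]
    generalize (j.val : ℤ) = jv at hb' hd' ⊢
    ext i k
    fin_cases i <;> fin_cases k <;> simp [Matrix.mul_apply, Fin.sum_univ_two]
    · linear_combination hb'
    · linear_combination hd'

theorem exists_U_rep {q : ℕ} [NeZero q] (A : IM) (hdet : A.det = q) (hA : (q : ℤ) ∣ A 1 0)
    (ha : IsUnit ((A 0 0 : ℤ) : ZMod q)) :
    ∃ (j : ZMod q) (δ : SL(2, ℤ)), δ 1 0 = A 1 0 ∧ δ 0 0 = A 0 0 ∧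
      A = δ.1 * !![1, (j.val : ℤ); 0, (q : ℤ)] := by
  have hq0 : (q : ℤ) ≠ 0 := by exact_mod_cast NeZero.ne q
  have hdet' : A 0 0 * A 1 1 - A 0 1 * A 1 0 = q := by rw [← hdet, Matrix.det_fin_two]
  obtain ⟨v, hv⟩ := ha
  set j : ZMod q := ((v⁻¹ : (ZMod q)ˣ) : ZMod q) * ((A 0 1 : ℤ) : ZMod q) with hj
  have hj1 : ((A 0 1 : ℤ) : ZMod q) = ((A 0 0 : ℤ) : ZMod q) * j := by
    rw [hj, ← hv, ← mul_assoc, Units.mul_inv, one_mul]
  have hd0 : ((A 1 1 : ℤ) : ZMod q) = 0 := by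
    have h1 := cast_00_mul_11 hA
    rw [hdet, ← hv] at h1
    have h2 : ((q : ℤ) : ZMod q) = 0 := by simp
    rw [h2] at h1
    exact (Units.mul_right_eq_zero v).1 h1
  obtain ⟨b', hb'⟩ : (q : ℤ) ∣ A 0 1 - A 0 0 * (j.val : ℤ) := by
    rw [← ZMod.intCast_zmod_eq_zero_iff_dvd]
    push_cast
    rw [ZMod.natCast_zmod_val, ← hj1, sub_self]
  obtain ⟨d', hd'⟩ : (q : ℤ) ∣ A 1 1 - A 1 0 * (j.val : ℤ) := by
    rw [← ZMod.intCast_zmod_eq_zero_iff_dvd]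
    push_cast
    rw [hd0, (ZMod.intCast_zmod_eq_zero_iff_dvd _ _).2 hA, zero_mul, sub_zero]
  have h1 : A 0 0 * d' - b' * A 1 0 = 1 := by
    apply mul_left_cancel₀ hq0
    linear_combination hdet' - A 0 0 * hd' + A 1 0 * hb'
  refine ⟨j, ⟨!![A 0 0, b'; A 1 0, d'], by rw [Matrix.det_fin_two_of]; exact h1⟩, rfl, rfl, ?_⟩
  show A = !![A 0 0, b'; A 1 0, d'] * !![1, (j.val : ℤ); 0, (q : ℤ)]
  generalize (j.val : ℤ) = jv at hb' hd' ⊢
  ext i k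
  fin_cases i <;> fin_cases k <;> simp [Matrix.mul_apply, Fin.sum_univ_two]
  · linear_combination hb'
  · linear_combination hd'

/-! ### Atkin-Lehner matrices -/

/-- the Atkin-Lehner matrix `(q x, y; q M z, q t)` -/
def alMat (q M : ℕ) (x y z t : ℤ) : IM := !![(q : ℤ) * x, y; (q : ℤ) * M * z, (q : ℤ) * t]

theorem det_alMat (q M : ℕ) {x y z t : ℤ} (h : (q : ℤ) * x * t - M * y * z = 1) :
    (alMat q M x y z t).det = q := by
  rw [alMat, Matrix.det_fin_two_of]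
  linear_combination (q : ℤ) * h

/-- `adj (q x, y; q M z, q t) = (q t, -y; - q M z, q x)` -/
theorem alMat_mul_alMat (q M : ℕ) {x y z t : ℤ} (h : (q : ℤ) * x * t - M * y * z = 1) :
    alMat q M x y z t * alMat q M t (-y) (-z) x = (q : ℤ) • (1 : IM) := by
  unfold alMat
  ext i k
  fin_cases i <;> fin_cases k <;> simp [Matrix.mul_apply, Fin.sum_univ_two]
  · linear_combination (q : ℤ) * h
  · ring
  · ring
  · linear_combination (q : ℤ) * h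

theorem conjW {q M : ℕ} [NeZero q] {x y z t : ℤ} (hW : (q : ℤ) * x * t - M * y * z = 1) (A : IM)
    (hA : ((q * M : ℕ) : ℤ) ∣ A 1 0) :
    ∃ B : IM, alMat q M x y z t * A * alMat q M t (-y) (-z) x = (q : ℤ) • B ∧
      ((q * M : ℕ) : ℤ) ∣ B 1 0 ∧ ((B 1 1 : ℤ) : ZMod q) = ((A 0 0 : ℤ) : ZMod q) ∧
      ((B 0 0 : ℤ) : ZMod q) = ((A 1 1 : ℤ) : ZMod q) ∧ B.det = A.det := by
  have hq0 : (q : ℤ) ≠ 0 := by exact_mod_cast NeZero.ne q
  obtain ⟨c', hc'⟩ := hA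
  push_cast at hc'
  have hWq : -((M : ZMod q) * (y : ZMod q) * (z : ZMod q)) = 1 := by
    have := congrArg (Int.cast : ℤ → ZMod q) hW
    push_cast at this
    simpa using this
  set B : IM := !![(q : ℤ) * x * A 0 0 * t - q * x * A 0 1 * M * z + y * A 1 0 * t - y * A 1 1 * M * z,
      -(x * A 0 0 * y) + A 0 1 * q * x * x + A 1 1 * x * y - M * c' * y * y;
      (q : ℤ) * M * (z * A 0 0 * t - A 0 1 * M * z * z + t * t * c' * q - t * A 1 1 * z),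
      -(M * z * A 0 0 * y) + A 0 1 * q * M * z * x - t * A 1 0 * y + A 1 1 * q * t * x] with hB
  have hmul : alMat q M x y z t * A * alMat q M t (-y) (-z) x = (q : ℤ) • B := by
    rw [hB]
    unfold alMat
    ext i k
    fin_cases i <;> fin_cases k <;>
      simp [Matrix.mul_apply, Fin.sum_univ_two, Matrix.vecMul, dotProduct, hc'] <;> ring
  refine ⟨B, hmul, ?_, ?_, ?_, ?_⟩
  · show ((q * M : ℕ) : ℤ) ∣ (q : ℤ) * M * _
    push_cast
    exact Dvd.intro _ rfl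
  · show ((-(M * z * A 0 0 * y) + A 0 1 * q * M * z * x - t * A 1 0 * y + A 1 1 * q * t * x : ℤ) :
      ZMod q) = _
    rw [hc']
    push_cast
    simp only [ZMod.natCast_self]
    linear_combination ((A 0 0 : ℤ) : ZMod q) * hWq
  · show (((q : ℤ) * x * A 0 0 * t - q * x * A 0 1 * M * z + y * A 1 0 * t - y * A 1 1 * M * z : ℤ) :
      ZMod q) = _
    rw [hc']
    push_cast
    simp only [ZMod.natCast_self]
    linear_combination ((A 1 1 : ℤ) : ZMod q) * hWq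
  · have h1 := congrArg Matrix.det hmul
    rw [Matrix.det_mul, Matrix.det_mul, det_alMat q M hW,
      det_alMat q M (x := t) (y := -y) (z := -z) (t := x) (by linear_combination hW),
      Matrix.det_smul, Fintype.card_fin] at h1
    have hq2 : (q : ℤ) ^ 2 ≠ 0 := pow_ne_zero _ hq0
    apply mul_left_cancel₀ hq2
    linear_combination -h1

end Fermat.Agent.S43.Ops.Rel
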