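/-
Row 37 (S43), block OPS (architect helper297), sub-block REL (helper211): THE FORMAL LAYER.

An operator `A : FB F₀ → FB F₀` is *represented* by a finite family `a : ι → GL(2,ℝ)⁺` if
`real hL (A u) = ∏ i, (a i)⁻¹ • real hL u` for all `u` (i.e. `A u = ∏ i, u ∘ a i`).
* `IsRep.comp`   : `A ∘ B` is represented by `(i, j) ↦ b j * a i`;
* `IsRep.ext`    : two operators whose families agree up to a bijection, left multiplication by `H` and
                   real scalars (`Eqv H`) are equal;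
* instances      : `HeckeData.heckeB`, `conjAut`, the identity.
So every relation between Hecke operators, diamonds and Atkin-Lehner involutions is reduced to coset
bookkeeping in `GL(2,ℝ)⁺`.
-/
import Fermat.Agent.S48.BB.T.HeckeGen

set_option autoImplicit false

noncomputable section

namespace Fermat.Agent.S43.Ops.Rel

open ModularCurve UpperHalfPlane
open Fermat.Agent.S24 Fermat.Agent.GAL.Mult Fermat.Agent.S48.BB Fermat.Agent.S48.BB.U
open Fermat.Agent.S48.BB.T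
open scoped MatrixGroups

/-- shortcut instance (the generic search times out) -/
local instance instDMARep : DistribMulAction GL(2, ℝ)⁺ MM := instActionMM.toDistribMulAction

/-- shortcut instance (the generic search times out) -/
local instance instMARep : MulAction GL(2, ℝ)⁺ MM := instDMARep.toMulAction

/-- shortcut instance (the generic search times out) -/
local instance instSARep : SemigroupAction GL(2, ℝ)⁺ MM := instMARep.toSemigroupAction

/-! ### Elements with the same action on the upper half plane -/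

/-- Two elements of `GL(2,ℝ)⁺` with the same action on `ℍ` have the same action on `MM`. -/
theorem smul_MM_congr {g g' : GL(2, ℝ)⁺} (h : ∀ τ : ℍ, g • τ = g' • τ) (x : MM) :
    g⁻¹ • x = g'⁻¹ • x := by
  have key : MulSemiringAction.toRingHom GL(2, ℝ)⁺ MM g⁻¹ =
      MulSemiringAction.toRingHom GL(2, ℝ)⁺ MM g'⁻¹ := by
    apply IsLocalization.ringHom_ext (nonZeroDivisors Hol)
    ext f
    simp only [RingHom.comp_apply, MulSemiringAction.toRingHom_apply]
    rw [smul_algebraMap_Hol, smul_algebraMap_Hol]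
    congr 1
    apply Subtype.ext
    funext τ
    rw [smul_Hol_apply, smul_Hol_apply, inv_inv, inv_inv, h]
  exact congrArg (fun φ : MM →+* MM => φ x) key

/-- Proportional matrices have the same action on `ℍ`. -/
theorem smul_eq_of_val_eq {a b : GL(2, ℝ)⁺} {c : ℝ} (hc : c ≠ 0)
    (h : ((a : GL (Fin 2) ℝ) : Matrix (Fin 2) (Fin 2) ℝ) =
      c • ((b : GL (Fin 2) ℝ) : Matrix (Fin 2) (Fin 2) ℝ)) (τ : ℍ) : a • τ = b • τ := by
  apply UpperHalfPlane.ext
  show ((((a : GL (Fin 2) ℝ) • τ : ℍ)) : ℂ) = (((b : GL (Fin 2) ℝ) • τ : ℍ) : ℂ)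
  rw [coe_smul_of_det_pos a.2, coe_smul_of_det_pos b.2]
  have hc' : (c : ℂ) ≠ 0 := by exact_mod_cast hc
  have hn : num (a : GL (Fin 2) ℝ) τ = c * num (b : GL (Fin 2) ℝ) τ := by
    simp only [num, h, Matrix.smul_apply, smul_eq_mul]
    push_cast
    ring
  have hd : denom (a : GL (Fin 2) ℝ) τ = c * denom (b : GL (Fin 2) ℝ) τ := by
    simp only [denom, h, Matrix.smul_apply, smul_eq_mul]
    push_cast
    ring
  rw [hn, hd, mul_div_mul_left _ _ hc']

/-! ### Equivalence of representatives -/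

/-- `a` and `b` have the same class in `ℝˣ H \ GL(2,ℝ)⁺`. -/
def Eqv (H : Subgroup SL(2, ℤ)) (a b : GL(2, ℝ)⁺) : Prop :=
  ∃ δ ∈ H, ∀ τ : ℍ, a • τ = (sl δ * b) • τ

theorem Eqv.refl (H : Subgroup SL(2, ℤ)) (a : GL(2, ℝ)⁺) : Eqv H a a :=
  ⟨1, one_mem _, fun τ => by rw [map_one, one_mul]⟩

theorem Eqv.of_eq {H : Subgroup SL(2, ℤ)} {a b : GL(2, ℝ)⁺} {δ : SL(2, ℤ)} (hδ : δ ∈ H)
    (h : a = sl δ * b) : Eqv H a b := ⟨δ, hδ, fun τ => by rw [h]⟩

/-- criterion with matrices: `a = c • (δ * b)` -/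
theorem Eqv.of_val_eq {H : Subgroup SL(2, ℤ)} {a b : GL(2, ℝ)⁺} {δ : SL(2, ℤ)} (hδ : δ ∈ H) {c : ℝ}
    (hc : c ≠ 0) (h : ((a : GL (Fin 2) ℝ) : Matrix (Fin 2) (Fin 2) ℝ) =
      c • (((sl δ * b : GL(2, ℝ)⁺) : GL (Fin 2) ℝ) : Matrix (Fin 2) (Fin 2) ℝ)) : Eqv H a b :=
  ⟨δ, hδ, smul_eq_of_val_eq hc h⟩

theorem Eqv.symm {H : Subgroup SL(2, ℤ)} {a b : GL(2, ℝ)⁺} (h : Eqv H a b) : Eqv H b a := by
  obtain ⟨δ, hδ, h⟩ := h
  refine ⟨δ⁻¹, inv_mem hδ, fun τ => ?_⟩
  rw [mul_smul, h, mul_smul, ← mul_smul (sl δ⁻¹), ← map_mul, inv_mul_cancel, map_one, one_smul]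

theorem Eqv.trans {H : Subgroup SL(2, ℤ)} {a b c : GL(2, ℝ)⁺} (h : Eqv H a b) (h' : Eqv H b c) :
    Eqv H a c := by
  obtain ⟨δ, hδ, h⟩ := h
  obtain ⟨δ', hδ', h'⟩ := h'
  refine ⟨δ * δ', mul_mem hδ hδ', fun τ => ?_⟩
  rw [h, mul_smul, h', map_mul, mul_smul, mul_smul, mul_smul]

/-- right multiplication -/
theorem Eqv.mul_right {H : Subgroup SL(2, ℤ)} {a b : GL(2, ℝ)⁺} (h : Eqv H a b) (g : GL(2, ℝ)⁺) :
    Eqv H (a * g) (b * g) := by
  obtain ⟨δ, hδ, h⟩ := h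
  exact ⟨δ, hδ, fun τ => by rw [mul_smul, h, ← mul_smul, mul_assoc]⟩

variable {F₀ : IntermediateField ℚ (LaurentSeries ℚ)} {H : Subgroup SL(2, ℤ)} {N : ℕ} [NeZero N]

theorem Eqv.smul_real (hL : IsLvl F₀ H N) {a b : GL(2, ℝ)⁺} (h : Eqv H a b) (u : FB F₀) :
    a⁻¹ • real hL u = b⁻¹ • real hL u := by
  obtain ⟨δ, hδ, h⟩ := h
  rw [smul_MM_congr h, mul_inv_rev, mul_smul, ← map_inv, smul_real_of_mem hL _ (inv_mem hδ)]

theorem real_injective (hL : IsLvl F₀ H N) : Function.Injective (real hL) :=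
  (real hL).toRingHom.injective

/-! ### Represented operators -/

/-- `A u = ∏ i, u ∘ a i`. -/
def IsRep (hL : IsLvl F₀ H N) {ι : Type*} [Fintype ι] (A : FB F₀ → FB F₀) (a : ι → GL(2, ℝ)⁺) :
    Prop :=
  ∀ u, real hL (A u) = ∏ i, (a i)⁻¹ • real hL u

theorem IsRep.comp {hL : IsLvl F₀ H N} {ι κ : Type*} [Fintype ι] [Fintype κ]
    {A B : FB F₀ → FB F₀} {a : ι → GL(2, ℝ)⁺} {b : κ → GL(2, ℝ)⁺} (hA : IsRep hL A a)
    (hB : IsRep hL B b) : IsRep hL (A ∘ B) (fun x : ι × κ => b x.2 * a x.1) := by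
  intro u
  rw [Function.comp_apply, hA, Fintype.prod_prod_type]
  refine Finset.prod_congr rfl fun i _ => ?_
  rw [hB, Finset.smul_prod']
  refine Finset.prod_congr rfl fun j _ => ?_
  rw [mul_inv_rev, mul_smul]

/-- Two operators whose families agree up to a bijection and `Eqv H` are equal. -/
theorem IsRep.ext {hL : IsLvl F₀ H N} {ι κ : Type*} [Fintype ι] [Fintype κ]
    {A B : FB F₀ → FB F₀} {a : ι → GL(2, ℝ)⁺} {b : κ → GL(2, ℝ)⁺} (hA : IsRep hL A a)
    (hB : IsRep hL B b) (e : ι ≃ κ) (h : ∀ i, Eqv H (a i) (b (e i))) : A = B := by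
  funext u
  apply real_injective hL
  rw [hA, hB, ← e.prod_comp]
  exact Finset.prod_congr rfl fun i _ => (h i).smul_real hL u

/-- change of the family -/
theorem IsRep.congr {hL : IsLvl F₀ H N} {ι κ : Type*} [Fintype ι] [Fintype κ]
    {A : FB F₀ → FB F₀} {a : ι → GL(2, ℝ)⁺} {b : κ → GL(2, ℝ)⁺} (hA : IsRep hL A a)
    (e : ι ≃ κ) (h : ∀ i, Eqv H (a i) (b (e i))) : IsRep hL A b := by
  intro u
  rw [hA, ← e.prod_comp]
  exact Finset.prod_congr rfl fun i _ => (h i).smul_real hL u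

theorem isRep_id (hL : IsLvl F₀ H N) : IsRep hL id (fun _ : Unit => (1 : GL(2, ℝ)⁺)) := by
  intro u
  simp

/-- an operator with `real (A u) = g⁻¹ • real u` -/
theorem isRep_of_real {hL : IsLvl F₀ H N} {A : FB F₀ → FB F₀} {g : GL(2, ℝ)⁺}
    (h : ∀ u, real hL (A u) = g⁻¹ • real hL u) : IsRep hL A (fun _ : Unit => g) := by
  intro u
  rw [h]
  simp

theorem isRep_conjAut (hL : IsLvl F₀ H N) (σ : SL(2, ℤ))
    (hσ : σ ∈ Subgroup.normalizer (H : Set SL(2, ℤ))) :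
    IsRep hL (conjAut hL σ hσ) (fun _ : Unit => sl σ) :=
  isRep_of_real (real_conjAut hL σ hσ)

theorem isRep_heckeB {F₀' : IntermediateField ℚ (LaurentSeries ℚ)} {H' : Subgroup SL(2, ℤ)}
    {N' : ℕ} [NeZero N'] {ι : Type} [Fintype ι] (X : HeckeData F₀ F₀' H H' N N' ι) :
    IsRep X.hL X.heckeB X.a :=
  X.real_heckeB

/-- composition with single elements on both sides: `W' ∘ A ∘ W` -/
theorem IsRep.conj {hL : IsLvl F₀ H N} {ι : Type*} [Fintype ι] {A W W' : FB F₀ → FB F₀}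
    {a : ι → GL(2, ℝ)⁺} {g g' : GL(2, ℝ)⁺} (hA : IsRep hL A a)
    (hW : ∀ u, real hL (W u) = g⁻¹ • real hL u) (hW' : ∀ u, real hL (W' u) = g'⁻¹ • real hL u) :
    IsRep hL (W' ∘ A ∘ W) (fun i => g * a i * g') := by
  intro u
  rw [Function.comp_apply, Function.comp_apply, hW', hA, Finset.smul_prod']
  refine Finset.prod_congr rfl fun i _ => ?_
  rw [hW, mul_inv_rev, mul_inv_rev, mul_smul, mul_smul]

end Fermat.Agent.S43.Ops.Rel

end
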