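/-
Row 37 (S43), block OPS (architect helper297), sub-block REL: THE MATRIX SIDE, part 2 (helper184).
Bridge between `Eqv H` (helper211, `Rel/Rep.lean`) and identities of integral matrices.
* `IsI g A`              : the matrix of `g ∈ GL(2,ℝ)⁺` is the integral matrix `A`;
* `IsI.eqv`              : `c • A = c' • (δ * B)`, `δ ∈ H` gives `Eqv H g g'`;
* `exists_smul_of_smul_eq` : the same action on `ℍ` implies proportional;
* `Eqv.exists_eq`        : `Eqv H g g'`, `det g = det g'`, `-1 ∈ H` gives `g = sl δ * g'`, `δ ∈ H`;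
* `Eqv.left_cancel`      : cancellation of an element normalising `H`;
* `exists_equiv_of_disj` : THE MATCHING LEMMA.
-/
import Fermat.Agent.S43.Ops.Rel.Rep
import Fermat.Agent.S43.Ops.Rel.IntMat

set_option autoImplicit false

noncomputable section

namespace Fermat.Agent.S43.Ops.Rel

open ModularCurve UpperHalfPlane Matrix.SpecialLinearGroup
open Fermat.Agent.S24 Fermat.Agent.GAL.Mult Fermat.Agent.S48.BB Fermat.Agent.S48.BB.U
open Fermat.Agent.S48.BB.T Fermat.Agent.Lib.HeckeHom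
open scoped MatrixGroups

/-- the real matrix of an element of `GL(2,ℝ)⁺` -/
abbrev mat (g : GL(2, ℝ)⁺) : Matrix (Fin 2) (Fin 2) ℝ := ((g : GL (Fin 2) ℝ) : Matrix (Fin 2) (Fin 2) ℝ)

theorem mat_mul (g g' : GL(2, ℝ)⁺) : mat (g * g') = mat g * mat g' := rfl

theorem mat_injective : Function.Injective mat := fun _ _ h => Subtype.ext (Units.ext h)

/-- The matrix of `g` is the integral matrix `A`. -/
def IsI (g : GL(2, ℝ)⁺) (A : IM) : Prop := mat g = A.map (Int.cast : ℤ → ℝ)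

theorem IsI.mul {g g' : GL(2, ℝ)⁺} {A A' : IM} (h : IsI g A) (h' : IsI g' A') :
    IsI (g * g') (A * A') := by
  unfold IsI at *
  rw [mat_mul, h, h', Matrix.map_mul_intCast]

theorem isI_sl (γ : SL(2, ℤ)) : IsI (sl γ) γ.1 := by
  unfold IsI mat
  rw [coe_sl]
  ext i j
  simp

theorem IsI.eq {g g' : GL(2, ℝ)⁺} {A : IM} (h : IsI g A) (h' : IsI g' A) : g = g' :=
  mat_injective (h.trans h'.symm)

theorem IsI.det {g : GL(2, ℝ)⁺} {A : IM} (h : IsI g A) : (mat g).det = (A.det : ℝ) := by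
  rw [h, Matrix.det_fin_two, Matrix.det_fin_two]
  simp

theorem map_cast_injective : Function.Injective
    (fun A : IM => A.map (Int.cast : ℤ → ℝ)) := by
  intro A B h
  ext i j
  have := congrFun (congrFun h i) j
  simpa using this

/-- An identity of integral matrices gives an equivalence. -/
theorem IsI.eqv {H : Subgroup SL(2, ℤ)} {g g' : GL(2, ℝ)⁺} {A B : IM} (hg : IsI g A)
    (hg' : IsI g' B) {δ : SL(2, ℤ)} (hδ : δ ∈ H) {c c' : ℤ} (hc : c ≠ 0) (hc' : c' ≠ 0)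
    (h : c • A = c' • (δ.1 * B)) : Eqv H g g' := by
  have hcR : (c : ℝ) ≠ 0 := by exact_mod_cast hc
  have hcR' : (c' : ℝ) ≠ 0 := by exact_mod_cast hc'
  refine Eqv.of_val_eq hδ (c := (c' : ℝ) / c) (div_ne_zero hcR' hcR) ?_
  have h2 : IsI (sl δ * g') (δ.1 * B) := (isI_sl δ).mul hg'
  show mat g = _ • mat (sl δ * g')
  rw [hg, h2]
  ext i j
  have h3 := congrFun (congrFun h i) j
  simp only [Matrix.smul_apply, smul_eq_mul] at h3
  have h4 : (c : ℝ) * (A i j : ℝ) = (c' : ℝ) * (((δ.1 * B) i j : ℤ) : ℝ) := by exact_mod_cast h3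
  simp only [Matrix.map_apply, Matrix.smul_apply, smul_eq_mul]
  field_simp
  linear_combination h4

/-- `Eqv` is monotone in the group. -/
theorem Eqv.mono {H H' : Subgroup SL(2, ℤ)} (hle : H ≤ H') {a b : GL(2, ℝ)⁺} (h : Eqv H a b) :
    Eqv H' a b := by
  obtain ⟨δ, hδ, h⟩ := h
  exact ⟨δ, hle hδ, h⟩

/-! ### the same action implies proportional -/

/-- an element acting trivially on `ℍ` is a scalar -/
theorem mat_eq_smul_one_of_smul_eq {k : GL(2, ℝ)⁺} (h : ∀ τ : ℍ, k • τ = τ) :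
    mat k = (mat k 0 0) • (1 : Matrix (Fin 2) (Fin 2) ℝ) := by
  have key : ∀ τ : ℍ, ((mat k 0 0 : ℝ) : ℂ) * τ + ((mat k 0 1 : ℝ) : ℂ) =
      (τ : ℂ) * (((mat k 1 0 : ℝ) : ℂ) * τ + ((mat k 1 1 : ℝ) : ℂ)) := by
    intro τ
    have h1 : ((((k : GL (Fin 2) ℝ) • τ : ℍ)) : ℂ) = (τ : ℂ) := congrArg _ (h τ)
    rw [coe_smul_of_det_pos k.2] at h1
    have hd : denom (k : GL (Fin 2) ℝ) τ ≠ 0 := denom_ne_zero _ τ
    rw [div_eq_iff hd] at h1
    exact h1
  have h1 := key I
  have h2 := key ⟨2 * Complex.I, by simp⟩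
  rw [coe_I] at h1
  rw [coe_mk] at h2
  have e1 := congrArg Complex.re h1
  have e2 := congrArg Complex.im h1
  have e3 := congrArg Complex.re h2
  simp at e1 e2 e3
  have hc : mat k 1 0 = 0 := by linarith
  have hb : mat k 0 1 = 0 := by linarith
  ext i j
  fin_cases i <;> fin_cases j <;> simp [hc, hb, e2]

theorem exists_smul_of_smul_eq {g g' : GL(2, ℝ)⁺} (h : ∀ τ : ℍ, g • τ = g' • τ) :
    ∃ c : ℝ, mat g = c • mat g' := by
  have h1 : ∀ τ : ℍ, (g'⁻¹ * g) • τ = τ := by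
    intro τ
    rw [mul_smul, h, inv_smul_smul]
  have h2 := mat_eq_smul_one_of_smul_eq h1
  refine ⟨mat (g'⁻¹ * g) 0 0, ?_⟩
  have h3 : g = g' * (g'⁻¹ * g) := by group
  conv_lhs => rw [h3, mat_mul, h2]
  rw [Matrix.mul_smul, Matrix.mul_one]

/-- For equal determinants, `Eqv` is an honest identity. -/
theorem Eqv.exists_eq {H : Subgroup SL(2, ℤ)} (hneg : (-1 : SL(2, ℤ)) ∈ H) {g g' : GL(2, ℝ)⁺}
    (h : Eqv H g g') (hdet : (mat g).det = (mat g').det) : ∃ δ ∈ H, g = sl δ * g' := by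
  obtain ⟨δ, hδ, h⟩ := h
  obtain ⟨c, hc⟩ := exists_smul_of_smul_eq h
  have hd1 : (mat (sl δ * g')).det = (mat g').det := by
    rw [mat_mul, Matrix.det_mul, (isI_sl δ).det, δ.2]
    simp
  have hpos : 0 < (mat g').det := g'.2
  have h2 : c ^ 2 = 1 := by
    have h3 := congrArg Matrix.det hc
    rw [Matrix.det_smul, Fintype.card_fin, hd1, hdet] at h3
    have : (c ^ 2 - 1) * (mat g').det = 0 := by linear_combination -h3
    rcases mul_eq_zero.1 this with h4 | h4
    · linarith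
    · exact absurd h4 hpos.ne'
  have h5 : (c - 1) * (c + 1) = 0 := by linear_combination h2
  rcases mul_eq_zero.1 h5 with h6 | h6
  · obtain rfl : c = 1 := by linarith
    exact ⟨δ, hδ, mat_injective (by rw [hc, one_smul])⟩
  · obtain rfl : c = -1 := by linarith
    refine ⟨-1 * δ, mul_mem hneg hδ, mat_injective ?_⟩
    rw [hc, map_mul, mul_assoc, mat_mul (sl (-1)), isI_sl (-1)]
    ext i j
    fin_cases i <;> fin_cases j <;> simp [Matrix.mul_apply, Fin.sum_univ_two]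

/-- Disjointness of a Hecke family in the sense of `Eqv`. -/
theorem disj_of_isHeckeFamily {H : Subgroup SL(2, ℤ)} (hneg : (-1 : SL(2, ℤ)) ∈ H) {ι : Type*}
    {α : ι → GL (Fin 2) ℝ} (hα : IsHeckeFamily ((mapGL ℝ).comp H.subtype) α)
    (hpos : ∀ i, 0 < (α i).det.val) (hdet : ∀ i j, (α i).det = (α j).det) (i j : ι)
    (h : Eqv H (⟨α i, hpos i⟩ : GL(2, ℝ)⁺) ⟨α j, hpos j⟩) : i = j := by
  obtain ⟨δ, hδ, h1⟩ := h.exists_eq hneg (by
    have := congrArg Units.val (hdet i j)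
    simpa [mat] using this)
  exact hα.disj i j ⟨δ, hδ⟩ (congrArg Subtype.val h1)

/-! ### cancellation -/

/-- `g` normalises `H` (one inclusion, up to the action on `ℍ`) -/
def NrmG (H : Subgroup SL(2, ℤ)) (g : GL(2, ℝ)⁺) : Prop :=
  ∀ δ ∈ H, ∃ δ' ∈ H, sl δ * g = g * sl δ'

theorem Eqv.left_cancel {H : Subgroup SL(2, ℤ)} {g a b : GL(2, ℝ)⁺} (hg : NrmG H g)
    (h : Eqv H (g * a) (g * b)) : Eqv H a b := by
  obtain ⟨δ, hδ, h⟩ := h
  obtain ⟨δ', hδ', h'⟩ := hg δ hδ
  refine ⟨δ', hδ', fun τ => ?_⟩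
  have h1 := h τ
  rw [← mul_assoc, h', mul_assoc, mul_smul, mul_smul g] at h1
  exact smul_left_cancel g h1

theorem Eqv.right_cancel {H : Subgroup SL(2, ℤ)} {g a b : GL(2, ℝ)⁺}
    (h : Eqv H (a * g) (b * g)) : Eqv H a b := by
  have := h.mul_right g⁻¹
  rwa [mul_inv_cancel_right, mul_inv_cancel_right] at this

theorem nrm_sl {H : Subgroup SL(2, ℤ)} {σ : SL(2, ℤ)}
    (hσ : σ ∈ Subgroup.normalizer (H : Set SL(2, ℤ))) : NrmG H (sl σ) := by
  intro δ hδ
  refine ⟨σ⁻¹ * δ * σ, ?_, ?_⟩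
  · have := (Subgroup.mem_normalizer_iff.1 (inv_mem hσ) δ).1 hδ
    rwa [inv_inv] at this
  · rw [← map_mul, ← map_mul]
    congr 1
    group

/-! ### the matching lemma -/

/-- **The matching lemma.**  If the classes of the `a i` are pairwise distinct and each `a i` is
equivalent to some `b j`, then (same finite index type) the two families are matched by a bijection. -/
theorem exists_equiv_of_disj {H : Subgroup SL(2, ℤ)} {ι : Type*} [Finite ι]
    {a b : ι → GL(2, ℝ)⁺} (ha : ∀ i j, Eqv H (a i) (a j) → i = j)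
    (hab : ∀ i, ∃ j, Eqv H (a i) (b j)) : ∃ e : ι ≃ ι, ∀ i, Eqv H (a i) (b (e i)) := by
  choose f hf using hab
  have hinj : Function.Injective f := by
    intro i j hij
    apply ha
    have h1 := hf j
    rw [← hij] at h1
    exact (hf i).trans h1.symm
  exact ⟨Equiv.ofBijective f (Finite.injective_iff_bijective.1 hinj), hf⟩

end Fermat.Agent.S43.Ops.Rel

end
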