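/-
Row 37 (S43), block OPS (architect helper297), sub-block REL: THE MATRIX SIDE, part 3 (helper184).
The families of `T_l` and `U_q` at the level `H1 q M = ±Γ₁(q) ∩ Γ₀(q M)`:
* `aT l σ x` (`= rep1 l σ x`, `σ ∈ Γ₀(q M)` ANY element with `dd q σ = l`), `aU q j` (`= heckeMatrix q j`);
* `aT_disj`, `aU_disj`          : the classes are pairwise distinct (for every `H`);
* `exists_eqv_aT`, `exists_eqv_aU` : CLASSIFICATION: every integral matrix with the right determinant and the right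
                                  congruences is equivalent to `sl τ * aT l σ x`, resp. `sl τ * aU q j`;
* `nrm_alMat`                   : an Atkin-Lehner matrix normalises `H1 q M`.
-/
import Fermat.Agent.S43.Ops.Rel.EqvInt

set_option autoImplicit false

noncomputable section

namespace Fermat.Agent.S43.Ops.Rel

open ModularCurve UpperHalfPlane Matrix.SpecialLinearGroup CongruenceSubgroup ModularForm
open Fermat.Agent.S24 Fermat.Agent.GAL.Mult Fermat.Agent.S48.A Fermat.Agent.S48.BB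
open Fermat.Agent.S48.BB.U Fermat.Agent.S48.BB.H Fermat.Agent.S48.BB.T Fermat.Agent.Lib.HeckeHom
open scoped MatrixGroups OnePoint

/-! ### the families -/

/-- the representatives of `T_l` -/
def aT (l : ℕ) (σ : SL(2, ℤ)) (x : OnePoint (ZMod l)) : GL(2, ℝ)⁺ :=
  ⟨rep1 l σ x, det_rep1_pos l σ x⟩

/-- the representatives of `U_q` -/
def aU (q : ℕ) (j : ZMod q) : GL(2, ℝ)⁺ := ⟨heckeMatrix q j.val, det_heckeMatrix_pos q j.val⟩

/-- the integral matrix `(1 j; 0 q)` -/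
def mU (q : ℕ) (j : ZMod q) : IM := !![1, (j.val : ℤ); 0, (q : ℤ)]

/-- the integral matrix `(l 0; 0 1)` -/
def mD (l : ℕ) : IM := !![(l : ℤ), 0; 0, 1]

theorem isI_aU (q : ℕ) [NeZero q] (j : ZMod q) : IsI (aU q j) (mU q j) := by
  show ((heckeMatrix q j.val : GL (Fin 2) ℝ) : Matrix (Fin 2) (Fin 2) ℝ) = _
  rw [val_heckeMatrix (NeZero.ne q), mU]
  ext i k
  fin_cases i <;> fin_cases k <;> simp

theorem isI_aT_coe (l : ℕ) [NeZero l] (σ : SL(2, ℤ)) (j : ZMod l) :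
    IsI (aT l σ (j : OnePoint (ZMod l))) (mU l j) := by
  show ((rep1 l σ (j : OnePoint (ZMod l)) : GL (Fin 2) ℝ) : Matrix (Fin 2) (Fin 2) ℝ) = _
  rw [rep1_coe]
  exact isI_aU l j

theorem isI_aT_infty (l : ℕ) [NeZero l] (σ : SL(2, ℤ)) : IsI (aT l σ ∞) (σ.1 * mD l) := by
  show ((rep1 l σ ∞ : GL (Fin 2) ℝ) : Matrix (Fin 2) (Fin 2) ℝ) = _
  rw [rep1_infty, Units.val_mul, val_heckeDiagMatrix (NeZero.ne l), Matrix.map_mul_intCast]
  congr 1
  rw [mD]
  ext i k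
  fin_cases i <;> fin_cases k <;> simp

/-- the integral matrices of the representatives of `T_l` -/
def mT (l : ℕ) (σ : SL(2, ℤ)) (x : OnePoint (ZMod l)) : IM :=
  x.elim (σ.1 * mD l) (fun j => mU l j)

theorem isI_aT (l : ℕ) [NeZero l] (σ : SL(2, ℤ)) (x : OnePoint (ZMod l)) :
    IsI (aT l σ x) (mT l σ x) := by
  induction x using OnePoint.rec with
  | infty => exact isI_aT_infty l σ
  | coe j => exact isI_aT_coe l σ j

theorem det_mU (q : ℕ) (j : ZMod q) : (mU q j).det = q := by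
  rw [mU, Matrix.det_fin_two_of]; ring

theorem det_mD (l : ℕ) : (mD l).det = l := by
  rw [mD, Matrix.det_fin_two_of]; ring

theorem det_mT (l : ℕ) (σ : SL(2, ℤ)) (x : OnePoint (ZMod l)) : (mT l σ x).det = l := by
  induction x using OnePoint.rec with
  | infty =>
    show (σ.1 * mD l).det = l
    rw [Matrix.det_mul, σ.2, one_mul, det_mD]
  | coe j => exact det_mU l j

theorem dvd_mT_10 {N : ℕ} (l : ℕ) {σ : SL(2, ℤ)} (hσ : σ ∈ Gamma0 N) (x : OnePoint (ZMod l)) :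
    (N : ℤ) ∣ mT l σ x 1 0 := by
  induction x using OnePoint.rec with
  | infty =>
    show (N : ℤ) ∣ (σ.1 * mD l) 1 0
    exact dvd_mul_10 (mem_Gamma0_iff_dvd.1 hσ) (by simp [mD])
  | coe j =>
    show (N : ℤ) ∣ mU l j 1 0
    simp [mU]

theorem cast_mT_11 {q : ℕ} (l : ℕ) {σ : SL(2, ℤ)} (hσ : σ ∈ Gamma0 q) (hσl : dd q σ = (l : ZMod q))
    (x : OnePoint (ZMod l)) : ((mT l σ x 1 1 : ℤ) : ZMod q) = (l : ZMod q) := by
  induction x using OnePoint.rec with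
  | infty =>
    show (((σ.1 * mD l) 1 1 : ℤ) : ZMod q) = _
    rw [cast_mul_11 (mem_Gamma0_iff_dvd.1 hσ)]
    have : ((σ.1 1 1 : ℤ) : ZMod q) = (l : ZMod q) := hσl
    rw [this]
    simp [mD]
  | coe j =>
    show ((mU l j 1 1 : ℤ) : ZMod q) = _
    simp [mU]

/-! ### disjointness -/

theorem aU_disj {H : Subgroup SL(2, ℤ)} (q : ℕ) [NeZero q] (i j : ZMod q)
    (h : Eqv H (aU q i) (aU q j)) : i = j := by
  have h' : Eqv ⊤ (aU q i) (aU q j) := h.mono le_top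
  obtain ⟨δ, -, h1⟩ := h'.exists_eq (Subgroup.mem_top _) (by
    rw [(isI_aU q i).det, (isI_aU q j).det, det_mU, det_mU])
  exact heckeMatrix_disj δ i j (congrArg Subtype.val h1)

theorem aT_disj {H : Subgroup SL(2, ℤ)} {l : ℕ} (hl : 2 ≤ l) (σ : SL(2, ℤ))
    (x y : OnePoint (ZMod l)) (h : Eqv H (aT l σ x) (aT l σ y)) : x = y := by
  have : NeZero l := ⟨by omega⟩
  have h' : Eqv ⊤ (aT l σ x) (aT l σ y) := h.mono le_top
  obtain ⟨δ, -, h1⟩ := h'.exists_eq (Subgroup.mem_top _) (by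
    rw [(isI_aT l σ x).det, (isI_aT l σ y).det, det_mT, det_mT])
  have h2 : rep1 l σ x = mapGL ℝ δ * rep1 l σ y := congrArg Subtype.val h1
  induction x using OnePoint.rec with
  | infty =>
    induction y using OnePoint.rec with
    | infty => rfl
    | coe j =>
      exfalso
      rw [rep1_infty, rep1_coe] at h2
      apply heckeDiag_ne_matrix hl (σ⁻¹ * δ) j.val
      rw [map_mul, map_inv, mul_assoc, ← h2, inv_mul_cancel_left]
  | coe i =>
    induction y using OnePoint.rec with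
    | infty =>
      exfalso
      rw [rep1_infty, rep1_coe] at h2
      apply heckeMatrix_ne_diag hl (δ * σ) i.val
      rw [h2, map_mul, mul_assoc]
    | coe j =>
      rw [rep1_coe, rep1_coe] at h2
      rw [heckeMatrix_disj δ i j h2]

/-! ### classification -/

variable {q M : ℕ}

theorem Gamma0_mul_le (q M : ℕ) : Gamma0 (q * M) ≤ Gamma0 q := by
  intro γ hγ
  rw [mem_Gamma0_iff_dvd] at hγ ⊢
  refine dvd_trans ?_ hγ
  push_cast
  exact Dvd.intro _ rfl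

/-- criterion for `δ * τ⁻¹ ∈ H1 q M` -/
theorem mul_inv_mem_H1 {δ τ : SL(2, ℤ)} (hδ : δ ∈ Gamma0 (q * M)) (hτ : τ ∈ Gamma0 (q * M))
    (h : dd q δ = dd q τ ∨ dd q δ = -dd q τ) : δ * τ⁻¹ ∈ H1 q M := by
  rw [mem_H1_iff']
  refine ⟨mem_Gamma0_iff_dvd.1 (mul_mem hδ (inv_mem hτ)), ?_⟩
  rw [dd_mul (Gamma0_mul_le q M hδ)]
  have h1 := dd_mul_dd_inv (Gamma0_mul_le q M hτ)
  rcases h with h | h
  · left; rw [h, h1]
  · right; rw [h, neg_mul, h1]

theorem isUnit_cast_of_prime {l : ℕ} (hl : l.Prime) (hlN : ¬ l ∣ q * M) :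
    IsUnit ((l : ℕ) : ZMod q) :=
  isUnit_natCast_of_prime q hl (fun h => hlN (Dvd.dvd.mul_right h M))

/-- **Classification for `T_l`.** -/
theorem exists_eqv_aT {l : ℕ} (hl : l.Prime) (hlN : ¬ l ∣ q * M) {σ τ : SL(2, ℤ)}
    (hσ : σ ∈ Gamma0 (q * M)) (hσl : dd q σ = (l : ZMod q)) (hτ : τ ∈ Gamma0 (q * M))
    {g : GL(2, ℝ)⁺} {A : IM} {c : ℤ} (hc : c ≠ 0) (hg : IsI g (c • A)) (hdet : A.det = l)
    (hA : ((q * M : ℕ) : ℤ) ∣ A 1 0)
    (hd : ((A 1 1 : ℤ) : ZMod q) = dd q τ * l ∨ ((A 1 1 : ℤ) : ZMod q) = -(dd q τ * l)) :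
    ∃ x, Eqv (H1 q M) g (sl τ * aT l σ x) := by
  have : NeZero l := ⟨hl.ne_zero⟩
  obtain ⟨v, hv⟩ := isUnit_cast_of_prime hl hlN
  rcases exists_T_rep hl hlN A hdet hA with ⟨j, δ, hδ, hAeq⟩ | ⟨δ, hδ, hAeq⟩
  · have hδ0 : δ ∈ Gamma0 (q * M) := mem_Gamma0_iff_dvd.2 hδ
    have h11 : ((A 1 1 : ℤ) : ZMod q) = dd q δ * l := by
      rw [hAeq, cast_mul_11 (mem_Gamma0_iff_dvd.1 (Gamma0_mul_le q M hδ0))]
      simp [dd]
    have hdd : dd q δ = dd q τ ∨ dd q δ = -dd q τ := by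
      rw [h11, ← hv] at hd
      rcases hd with hd | hd
      · left; exact (Units.mul_left_inj v).1 hd
      · right
        rw [← neg_mul] at hd
        exact (Units.mul_left_inj v).1 hd
    refine ⟨(j : OnePoint (ZMod l)), IsI.eqv hg ((isI_sl τ).mul (isI_aT_coe l σ j))
      (mul_inv_mem_H1 hδ0 hτ hdd) one_ne_zero hc ?_⟩
    rw [one_smul, ← Matrix.mul_assoc, ← Matrix.SpecialLinearGroup.coe_mul, inv_mul_cancel_right, hAeq]
    rfl
  · have hδ0 : δ ∈ Gamma0 (q * M) := mem_Gamma0_iff_dvd.2 hδ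
    have h11 : ((A 1 1 : ℤ) : ZMod q) = dd q δ := by
      rw [hAeq, cast_mul_11 (mem_Gamma0_iff_dvd.1 (Gamma0_mul_le q M hδ0))]
      simp [dd]
    have hdd : dd q δ = dd q (τ * σ) ∨ dd q δ = -dd q (τ * σ) := by
      rw [dd_mul (Gamma0_mul_le q M hτ), hσl, ← h11]
      exact hd
    refine ⟨∞, IsI.eqv hg ((isI_sl τ).mul (isI_aT_infty l σ))
      (mul_inv_mem_H1 hδ0 (mul_mem hτ hσ) hdd) one_ne_zero hc ?_⟩
    rw [one_smul, ← Matrix.mul_assoc, ← Matrix.mul_assoc, ← Matrix.SpecialLinearGroup.coe_mul, ← Matrix.SpecialLinearGroup.coe_mul, mul_assoc,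
      inv_mul_cancel_right, hAeq]
    rfl

/-- **Classification for `U_q`.** -/
theorem exists_eqv_aU [NeZero q] {τ : SL(2, ℤ)} (hτ : τ ∈ Gamma0 (q * M))
    {g : GL(2, ℝ)⁺} {A : IM} {c : ℤ} (hc : c ≠ 0) (hg : IsI g (c • A)) (hdet : A.det = q)
    (hA : ((q * M : ℕ) : ℤ) ∣ A 1 0)
    (ha : ((A 0 0 : ℤ) : ZMod q) * dd q τ = 1 ∨ ((A 0 0 : ℤ) : ZMod q) * dd q τ = -1) :
    ∃ j, Eqv (H1 q M) g (sl τ * aU q j) := by
  have hAq : (q : ℤ) ∣ A 1 0 := by
    refine dvd_trans ?_ hA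
    push_cast
    exact Dvd.intro _ rfl
  have hu : IsUnit ((A 0 0 : ℤ) : ZMod q) := by
    rcases ha with ha | ha
    · exact IsUnit.of_mul_eq_one _ ha
    · exact IsUnit.of_mul_eq_one (-dd q τ) (by rw [mul_neg, ha, neg_neg])
  obtain ⟨j, δ, h10, h00, hAeq⟩ := exists_U_rep A hdet hAq hu
  have hδ0 : δ ∈ Gamma0 (q * M) := mem_Gamma0_iff_dvd.2 (by rw [h10]; exact hA)
  have h1 : ((A 0 0 : ℤ) : ZMod q) * dd q δ = 1 := by
    have := cast_00_mul_11 (A := δ.1) (mem_Gamma0_iff_dvd.1 (Gamma0_mul_le q M hδ0))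
    rw [δ.2] at this
    rw [← h00]
    simpa [dd] using this
  have hdd : dd q δ = dd q τ ∨ dd q δ = -dd q τ := by
    rcases ha with ha | ha
    · left
      calc dd q δ = (((A 0 0 : ℤ) : ZMod q) * dd q τ) * dd q δ := by rw [ha, one_mul]
        _ = (((A 0 0 : ℤ) : ZMod q) * dd q δ) * dd q τ := by ring
        _ = dd q τ := by rw [h1, one_mul]
    · right
      calc dd q δ = -((((A 0 0 : ℤ) : ZMod q) * dd q τ) * dd q δ) := by rw [ha]; ring
        _ = -((((A 0 0 : ℤ) : ZMod q) * dd q δ) * dd q τ) := by ring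
        _ = -dd q τ := by rw [h1, one_mul]
  refine ⟨j, IsI.eqv hg ((isI_sl τ).mul (isI_aU q j))
    (mul_inv_mem_H1 hδ0 hτ hdd) one_ne_zero hc ?_⟩
  rw [one_smul, ← Matrix.mul_assoc, ← Matrix.SpecialLinearGroup.coe_mul, inv_mul_cancel_right, hAeq]
  rfl

/-! ### Atkin-Lehner matrices normalise `H1 q M` -/

theorem nrm_alMat [NeZero q] {x y z t : ℤ} (hW : (q : ℤ) * x * t - M * y * z = 1)
    {g : GL(2, ℝ)⁺} (hg : IsI g (alMat q M x y z t)) : NrmG (H1 q M) g := by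
  intro δ hδ
  have hq0 : (q : ℤ) ≠ 0 := by exact_mod_cast NeZero.ne q
  rw [mem_H1_iff'] at hδ
  have hW2 : (q : ℤ) * t * x - M * (-y) * (-z) = 1 := by linear_combination hW
  obtain ⟨B, hB, hB10, hB11, -, hBdet⟩ := conjW hW2 δ.1 hδ.1
  rw [neg_neg, neg_neg] at hB
  have hq10 : (q : ℤ) ∣ δ 1 0 := by
    refine dvd_trans ?_ hδ.1
    push_cast
    exact Dvd.intro _ rfl
  have h00 : ((δ 0 0 : ℤ) : ZMod q) * dd q δ = 1 := by
    have := cast_00_mul_11 (A := δ.1) hq10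
    rw [δ.2] at this
    simpa [dd] using this
  have hB1 : B.det = 1 := hBdet.trans δ.2
  refine ⟨⟨B, hB1⟩, ?_, ?_⟩
  · refine mem_H1_iff'.2 ⟨hB10, ?_⟩
    show ((B 1 1 : ℤ) : ZMod q) = 1 ∨ ((B 1 1 : ℤ) : ZMod q) = -1
    rw [hB11]
    rcases hδ.2 with h | h
    · left; rw [h, mul_one] at h00; exact h00
    · right
      rw [h, mul_neg, mul_one] at h00
      rw [← h00, neg_neg]
  · refine IsI.eq ((isI_sl δ).mul hg) ?_
    have h1 : IsI (g * sl ⟨B, hB1⟩) (alMat q M x y z t * B) := hg.mul (isI_sl _)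
    have h2 : alMat q M x y z t * B = δ.1 * alMat q M x y z t := by
      have h3 : (q : ℤ) • (alMat q M x y z t * B) = (q : ℤ) • (δ.1 * alMat q M x y z t) := by
        rw [← Matrix.mul_smul, ← hB, ← Matrix.mul_assoc, ← Matrix.mul_assoc, alMat_mul_alMat q M hW,
          Matrix.smul_mul, Matrix.smul_mul, Matrix.one_mul]
      exact smul_right_injective _ hq0 h3
    rw [← h2]
    exact h1

end Fermat.Agent.S43.Ops.Rel

end
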