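/-
Row 37 (S43), block OPS (architect helper297), sub-block REL: THE RELATIONS (helper184).
`H` is any group with `H1 q M ≤ H` (e.g. `H1 q M = ±Γ₁(q) ∩ Γ₀(q M)` itself, or `Γ₀(q M)`).
`σ ∈ Γ₀(q M)` is ANY element with `dd q σ = l`; `aT l σ = rep1 l σ`, `aU q j = heckeMatrix q j`.
`g`, `g'` are the elements of `GL(2,ℝ)⁺` with matrices `W = (q x, y; q M z, q t)`, `adj W`, `det W = q`.

MATRIX FORM
* `exists_equiv_aT_mul_sl` : `aT x * τ ~ τ * aT (e x)`            (`τ ∈ Γ₀(q M)`);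
* `exists_equiv_aU_mul_sl` : `aU j * τ ~ τ * aU (e j)`;
* `exists_equiv_al_aT`     : `W * aT x * adj W ~ τ * aT (e x)`     (`dd q τ * l = 1`);
* `eqv_al_sl`              : `W * σ * adj W ~ σ'`                  (`dd q σ * dd q σ' = 1`);
* `eqv_al_sq`              : `W * W ~ 1`.
OPERATOR FORM (for operators given by their `real` formulas, `IsRep` of helper211)
* `dia_T_comm`, `dia_U_comm` : diamonds commute with `T_l`, `U_q`;
* `al_T`                     : `w' ∘ T_l ∘ w = T_l ∘ ⟨l⟩⁻¹`;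
* `al_dia`                   : `w' ∘ ⟨d⟩ ∘ w = ⟨d⟩⁻¹`;
* `al_al`                    : `w ∘ w = id`.
-/
import Fermat.Agent.S43.Ops.Rel.Fam

set_option autoImplicit false

noncomputable section

namespace Fermat.Agent.S43.Ops.Rel

open ModularCurve UpperHalfPlane Matrix.SpecialLinearGroup CongruenceSubgroup ModularForm
open Fermat.Agent.S24 Fermat.Agent.GAL.Mult Fermat.Agent.S48.A Fermat.Agent.S48.BB
open Fermat.Agent.S48.BB.U Fermat.Agent.S48.BB.H Fermat.Agent.S48.BB.T Fermat.Agent.Lib.HeckeHom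
open scoped MatrixGroups OnePoint

variable {q M : ℕ} {H : Subgroup SL(2, ℤ)}

/-! ### matrix form -/

theorem cast_00_mul_dd {τ : SL(2, ℤ)} (hτ : τ ∈ Gamma0 q) :
    ((τ 0 0 : ℤ) : ZMod q) * dd q τ = 1 := by
  have := cast_00_mul_11 (A := τ.1) (mem_Gamma0_iff_dvd.1 hτ)
  rw [τ.2] at this
  simpa [dd] using this

theorem exists_equiv_aT_mul_sl (hle : H1 q M ≤ H) {l : ℕ} (hl : l.Prime) (hlN : ¬ l ∣ q * M)
    {σ τ : SL(2, ℤ)} (hσ : σ ∈ Gamma0 (q * M)) (hσl : dd q σ = (l : ZMod q))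
    (hτ : τ ∈ Gamma0 (q * M)) :
    ∃ e : OnePoint (ZMod l) ≃ OnePoint (ZMod l),
      ∀ x, Eqv H (aT l σ x * sl τ) (sl τ * aT l σ (e x)) := by
  have : NeZero l := ⟨hl.ne_zero⟩
  have : Finite (OnePoint (ZMod l)) := inferInstanceAs (Finite (Option (ZMod l)))
  refine exists_equiv_of_disj (a := fun x => aT l σ x * sl τ) (b := fun x => sl τ * aT l σ x)
    ?_ ?_
  · intro x y h
    exact aT_disj hl.two_le σ x y h.right_cancel
  · intro x
    obtain ⟨y, hy⟩ := exists_eqv_aT hl hlN hσ hσl hτ one_ne_zero (A := mT l σ x * τ.1)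
      (g := aT l σ x * sl τ) (by rw [one_smul]; exact (isI_aT l σ x).mul (isI_sl τ))
      (by rw [Matrix.det_mul, det_mT, τ.2, mul_one])
      (dvd_mul_10 (dvd_mT_10 l hσ x) (mem_Gamma0_iff_dvd.1 hτ))
      (Or.inl (by
        rw [cast_mul_11 (dvd_mT_10 l (Gamma0_mul_le q M hσ) x),
          cast_mT_11 l (Gamma0_mul_le q M hσ) hσl, mul_comm]
        rfl))
    exact ⟨y, hy.mono hle⟩

theorem exists_equiv_aU_mul_sl [NeZero q] (hle : H1 q M ≤ H) {τ : SL(2, ℤ)}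
    (hτ : τ ∈ Gamma0 (q * M)) :
    ∃ e : ZMod q ≃ ZMod q, ∀ j, Eqv H (aU q j * sl τ) (sl τ * aU q (e j)) := by
  refine exists_equiv_of_disj (a := fun x => aU q x * sl τ) (b := fun x => sl τ * aU q x) ?_ ?_
  · intro x y h
    exact aU_disj q x y h.right_cancel
  · intro x
    obtain ⟨y, hy⟩ := exists_eqv_aU hτ one_ne_zero (A := mU q x * τ.1)
      (g := aU q x * sl τ) (by rw [one_smul]; exact (isI_aU q x).mul (isI_sl τ))
      (by rw [Matrix.det_mul, det_mU, τ.2, mul_one])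
      (dvd_mul_10 (by simp [mU]) (mem_Gamma0_iff_dvd.1 hτ))
      (Or.inl (by
        rw [cast_mul_00 (mem_Gamma0_iff_dvd.1 (Gamma0_mul_le q M hτ))]
        have h1 : ((mU q x 0 0 : ℤ) : ZMod q) = 1 := by simp [mU]
        rw [h1, one_mul]
        exact cast_00_mul_dd (Gamma0_mul_le q M hτ)))
    exact ⟨y, hy.mono hle⟩

section AL

variable [NeZero q] {x y z t : ℤ} {g g' : GL(2, ℝ)⁺}

theorem exists_equiv_al_aT (hle : H1 q M ≤ H) (hW : (q : ℤ) * x * t - M * y * z = 1)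
    (hg : IsI g (alMat q M x y z t)) (hg' : IsI g' (alMat q M t (-y) (-z) x)) (hN : NrmG H g)
    {l : ℕ} (hl : l.Prime) (hlN : ¬ l ∣ q * M)
    {σ τ : SL(2, ℤ)} (hσ : σ ∈ Gamma0 (q * M)) (hσl : dd q σ = (l : ZMod q))
    (hτ : τ ∈ Gamma0 (q * M)) (hτl : dd q τ * (l : ZMod q) = 1) :
    ∃ e : OnePoint (ZMod l) ≃ OnePoint (ZMod l),
      ∀ i, Eqv H (g * aT l σ i * g') (sl τ * aT l σ (e i)) := by
  have : NeZero l := ⟨hl.ne_zero⟩
  have : Finite (OnePoint (ZMod l)) := inferInstanceAs (Finite (Option (ZMod l)))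
  have hq0 : (q : ℤ) ≠ 0 := by exact_mod_cast NeZero.ne q
  refine exists_equiv_of_disj (a := fun i => g * aT l σ i * g') (b := fun i => sl τ * aT l σ i)
    ?_ ?_
  · intro i j h
    exact aT_disj hl.two_le σ i j (h.right_cancel.left_cancel hN)
  · intro i
    obtain ⟨B, hB, hB10, hB11, -, hBdet⟩ := conjW hW (mT l σ i) (dvd_mT_10 l hσ i)
    have h00 : ((mT l σ i 0 0 : ℤ) : ZMod q) = 1 := by
      have h1 := cast_00_mul_11 (A := mT l σ i) (dvd_mT_10 l (Gamma0_mul_le q M hσ) i)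
      rw [cast_mT_11 l (Gamma0_mul_le q M hσ) hσl, det_mT] at h1
      obtain ⟨v, hv⟩ := isUnit_cast_of_prime (q := q) (M := M) hl hlN
      have h2 : ((mT l σ i 0 0 : ℤ) : ZMod q) * (v : ZMod q) = 1 * (v : ZMod q) := by
        rw [hv, one_mul, h1]
        simp
      exact (Units.mul_left_inj v).1 h2
    obtain ⟨j, hj⟩ := exists_eqv_aT hl hlN hσ hσl hτ hq0 (A := B) (g := g * aT l σ i * g')
      (by rw [← hB]; exact (hg.mul (isI_aT l σ i)).mul hg') (hBdet.trans (det_mT l σ i)) hB10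
      (Or.inl (by rw [hB11, h00, hτl]))
    exact ⟨j, hj.mono hle⟩

theorem eqv_al_sl (hle : H1 q M ≤ H) (hW : (q : ℤ) * x * t - M * y * z = 1)
    (hg : IsI g (alMat q M x y z t)) (hg' : IsI g' (alMat q M t (-y) (-z) x))
    {σ σ' : SL(2, ℤ)} (hσ : σ ∈ Gamma0 (q * M)) (hσ' : σ' ∈ Gamma0 (q * M))
    (h : dd q σ * dd q σ' = 1) : Eqv H (g * sl σ * g') (sl σ') := by
  have hq0 : (q : ℤ) ≠ 0 := by exact_mod_cast NeZero.ne q
  obtain ⟨B, hB, hB10, hB11, -, hBdet⟩ := conjW hW σ.1 (mem_Gamma0_iff_dvd.1 hσ)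
  have hB1 : B.det = 1 := hBdet.trans σ.2
  have h00 := cast_00_mul_dd (Gamma0_mul_le q M hσ)
  obtain ⟨β, hβ⟩ : ∃ β : SL(2, ℤ), β.1 = B := ⟨⟨B, hB1⟩, rfl⟩
  have hdd : dd q β = dd q σ' := by
    show ((β.1 1 1 : ℤ) : ZMod q) = dd q σ'
    rw [hβ]
    rw [hB11]
    calc ((σ 0 0 : ℤ) : ZMod q) = ((σ 0 0 : ℤ) : ZMod q) * (dd q σ * dd q σ') := by rw [h, mul_one]
      _ = (((σ 0 0 : ℤ) : ZMod q) * dd q σ) * dd q σ' := by ring
      _ = dd q σ' := by rw [h00, one_mul]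
  refine Eqv.mono hle (IsI.eqv ((hg.mul (isI_sl σ)).mul hg') (isI_sl σ')
    (mul_inv_mem_H1 (δ := β) (mem_Gamma0_iff_dvd.2 (by
      show ((q * M : ℕ) : ℤ) ∣ β.1 1 0
      rw [hβ]; exact hB10)) hσ' (Or.inl hdd))
    one_ne_zero hq0 ?_)
  rw [one_smul, hB, ← Matrix.SpecialLinearGroup.coe_mul, inv_mul_cancel_right, hβ]

theorem eqv_al_sq (hle : H1 q M ≤ H) (hW : (q : ℤ) * x * t - M * y * z = 1)
    (hg : IsI g (alMat q M x y z t)) : Eqv H (g * g) 1 := by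
  have hq0 : (q : ℤ) ≠ 0 := by exact_mod_cast NeZero.ne q
  have hdet : (!![(q : ℤ) * x * x + M * y * z, y * (x + t); (q : ℤ) * M * (z * (x + t)),
      M * y * z + q * t * t] : IM).det = 1 := by
    rw [Matrix.det_fin_two_of]
    linear_combination ((q : ℤ) * x * t - M * y * z + 1) * hW
  have hmem : (⟨_, hdet⟩ : SL(2, ℤ)) ∈ H1 q M := by
    refine mem_H1_iff'.2 ⟨?_, Or.inr ?_⟩
    · show ((q * M : ℕ) : ℤ) ∣ (q : ℤ) * M * (z * (x + t))
      push_cast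
      exact Dvd.intro _ rfl
    · show ((M * y * z + q * t * t : ℤ) : ZMod q) = -1
      have := congrArg (Int.cast : ℤ → ZMod q) hW
      push_cast at this ⊢
      simp only [ZMod.natCast_self] at this ⊢
      linear_combination -this
  have h1 : IsI (1 : GL(2, ℝ)⁺) (1 : IM) := by
    have := isI_sl 1
    rwa [map_one] at this
  refine Eqv.mono hle (IsI.eqv (hg.mul hg) h1 hmem one_ne_zero hq0 ?_)
  rw [one_smul, Matrix.mul_one]
  unfold alMat
  ext i k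
  fin_cases i <;> fin_cases k <;> simp [Matrix.mul_apply, Fin.sum_univ_two] <;> ring

end AL

/-! ### operator form -/

variable {F₀ : IntermediateField ℚ (LaurentSeries ℚ)} {N : ℕ} [NeZero N] {hL : IsLvl F₀ H N}

/-- an operator represented by a family commutes with an operator represented by a single element
`g`, if `a i * g ~ g * a (e i)` -/
theorem IsRep.comm_single {ι : Type*} [Fintype ι] {A D : FB F₀ → FB F₀} {a : ι → GL(2, ℝ)⁺}
    {g : GL(2, ℝ)⁺} (hA : IsRep hL A a) (hD : ∀ u, real hL (D u) = g⁻¹ • real hL u) (e : ι ≃ ι)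
    (h : ∀ i, Eqv H (a i * g) (g * a (e i))) (u : FB F₀) : D (A u) = A (D u) := by
  have h1 := IsRep.ext (IsRep.comp (isRep_of_real hD) hA) (IsRep.comp hA (isRep_of_real hD))
    ((Equiv.prodComm Unit ι).trans (e.prodCongr (Equiv.refl Unit))) (fun i => h i.2)
  exact congrFun h1 u

/-- **Diamonds commute with `T_l`.** -/
theorem dia_T_comm (hle : H1 q M ≤ H) {l : ℕ} [NeZero l] (hl : l.Prime) (hlN : ¬ l ∣ q * M)
    {σ τ : SL(2, ℤ)} (hσ : σ ∈ Gamma0 (q * M)) (hσl : dd q σ = (l : ZMod q))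
    (hτ : τ ∈ Gamma0 (q * M)) {A D : FB F₀ → FB F₀} (hA : IsRep hL A (aT l σ))
    (hD : ∀ u, real hL (D u) = (sl τ)⁻¹ • real hL u) (u : FB F₀) : D (A u) = A (D u) := by
  obtain ⟨e, he⟩ := exists_equiv_aT_mul_sl hle hl hlN hσ hσl hτ
  exact hA.comm_single hD e he u

/-- **Diamonds commute with `U_q`.** -/
theorem dia_U_comm [NeZero q] (hle : H1 q M ≤ H) {τ : SL(2, ℤ)} (hτ : τ ∈ Gamma0 (q * M))
    {A D : FB F₀ → FB F₀} (hA : IsRep hL A (aU q))
    (hD : ∀ u, real hL (D u) = (sl τ)⁻¹ • real hL u) (u : FB F₀) : D (A u) = A (D u) := by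
  obtain ⟨e, he⟩ := exists_equiv_aU_mul_sl hle hτ
  exact hA.comm_single hD e he u

section AL

variable [NeZero q] {x y z t : ℤ} {g g' : GL(2, ℝ)⁺}

/-- **`w' ∘ T_l ∘ w = T_l ∘ ⟨l⟩⁻¹`.** -/
theorem al_T (hle : H1 q M ≤ H) (hW : (q : ℤ) * x * t - M * y * z = 1)
    (hg : IsI g (alMat q M x y z t)) (hg' : IsI g' (alMat q M t (-y) (-z) x)) (hN : NrmG H g)
    {l : ℕ} [NeZero l] (hl : l.Prime) (hlN : ¬ l ∣ q * M)
    {σ τ : SL(2, ℤ)} (hσ : σ ∈ Gamma0 (q * M)) (hσl : dd q σ = (l : ZMod q))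
    (hτ : τ ∈ Gamma0 (q * M)) (hτl : dd q τ * (l : ZMod q) = 1)
    {A W W' D : FB F₀ → FB F₀} (hA : IsRep hL A (aT l σ))
    (hW1 : ∀ u, real hL (W u) = g⁻¹ • real hL u) (hW2 : ∀ u, real hL (W' u) = g'⁻¹ • real hL u)
    (hD : ∀ u, real hL (D u) = (sl τ)⁻¹ • real hL u) (u : FB F₀) :
    W' (A (W u)) = A (D u) := by
  obtain ⟨e, he⟩ := exists_equiv_al_aT hle hW hg hg' hN hl hlN hσ hσl hτ hτl
  have h1 := IsRep.ext (IsRep.conj hA hW1 hW2) (IsRep.comp hA (isRep_of_real hD))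
    (e.trans (Equiv.prodPUnit _).symm) (fun i => he i)
  exact congrFun h1 u

/-- **`w' ∘ ⟨d⟩ ∘ w = ⟨d⟩⁻¹`.** -/
theorem al_dia (hle : H1 q M ≤ H) (hW : (q : ℤ) * x * t - M * y * z = 1)
    (hg : IsI g (alMat q M x y z t)) (hg' : IsI g' (alMat q M t (-y) (-z) x))
    {σ σ' : SL(2, ℤ)} (hσ : σ ∈ Gamma0 (q * M)) (hσ' : σ' ∈ Gamma0 (q * M))
    (h : dd q σ * dd q σ' = 1) {W W' D D' : FB F₀ → FB F₀}
    (hW1 : ∀ u, real hL (W u) = g⁻¹ • real hL u) (hW2 : ∀ u, real hL (W' u) = g'⁻¹ • real hL u)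
    (hD : ∀ u, real hL (D u) = (sl σ)⁻¹ • real hL u)
    (hD' : ∀ u, real hL (D' u) = (sl σ')⁻¹ • real hL u) (u : FB F₀) :
    W' (D (W u)) = D' u := by
  have h1 := IsRep.ext (IsRep.conj (isRep_of_real hD) hW1 hW2) (isRep_of_real hD')
    (Equiv.refl Unit) (fun _ => eqv_al_sl hle hW hg hg' hσ hσ' h)
  exact congrFun h1 u

/-- **`w ∘ w = id`.** -/
theorem al_al (hle : H1 q M ≤ H) (hW : (q : ℤ) * x * t - M * y * z = 1)
    (hg : IsI g (alMat q M x y z t)) {W : FB F₀ → FB F₀}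
    (hW1 : ∀ u, real hL (W u) = g⁻¹ • real hL u) (u : FB F₀) : W (W u) = u := by
  have h1 := IsRep.ext (IsRep.comp (isRep_of_real hW1) (isRep_of_real hW1)) (isRep_id hL)
    (Equiv.prodPUnit _) (fun _ => eqv_al_sq hle hW hg)
  exact congrFun h1 u

end AL

end Fermat.Agent.S43.Ops.Rel

end
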