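/-
Row 37 (S43), block OPS (architect helper297), sub-block REL (helper184).
`T_ℓ` and `T_ℓ'` commute, for two `HeckeOp1` (Hecke operators WITH diamonds), `ℓ`, `ℓ'` coprime, provided the
diamonds commute with each other and with the Hecke operators.  Formal, from the `q`-expansion formulas
(same proof as `GAL.E.HeckeOp.T_comm`).
-/
import Fermat.Agent.S48.BB.E.HeckeOp1
import Fermat.Agent.GAL.E.HeckeComm

set_option autoImplicit false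

noncomputable section

namespace Fermat.Agent.S43.Ops.Rel

open ModularCurve AlgebraicCurve Fermat.Agent.S24 Fermat.Agent.S24.B Fermat.Agent.S48.BB
open Fermat.Agent.S48.BB.M Fermat.Agent.S48.BB.E
open Fermat.Agent.GAL.E (qExpand_injective')
open Fermat.Agent.GAL.E.HeckeComm

/-- The common value of `(T_ℓ T_ℓ' u)(q^(ℓ ℓ'))`, with diamonds. -/
theorem key1 {C : Type*} [Field C] {ℓ ℓ' : ℕ} [NeZero ℓ] [NeZero ℓ'] (hc : Nat.Coprime ℓ ℓ')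
    (z z' : Cˣ) (hz : z ^ ℓ = 1) (u u₁ u₂ u₃ v v₂ w : LaurentSeries C)
    (hv : qExpand C ℓ' v = qExpand C (ℓ' * ℓ') u₁ * ∏ b ∈ Finset.range ℓ', twist (z' ^ b) u)
    (hv₂ : qExpand C ℓ' v₂ = qExpand C (ℓ' * ℓ') u₃ * ∏ b ∈ Finset.range ℓ', twist (z' ^ b) u₂)
    (hw : qExpand C ℓ w = qExpand C (ℓ * ℓ) v₂ * ∏ b ∈ Finset.range ℓ, twist (z ^ b) v) :
    qExpand C ℓ' (qExpand C ℓ w) =
      qExpand C (ℓ * ℓ) (qExpand C (ℓ' * ℓ') u₃) *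
        (∏ b' ∈ Finset.range ℓ', qExpand C (ℓ * ℓ) (twist (z' ^ b') u₂)) *
        ((∏ b ∈ Finset.range ℓ, twist (z ^ b) (qExpand C (ℓ' * ℓ') u₁)) *
          ∏ b ∈ Finset.range ℓ, ∏ b' ∈ Finset.range ℓ', twist (z ^ b * z' ^ b') u) := by
  rw [hw, map_mul, qExpand_comm ℓ' (ℓ * ℓ) v₂, hv₂, map_mul, map_prod, map_prod]
  congr 1
  rw [← prod_twist_qExpand hc.symm z hz v, ← Finset.prod_mul_distrib]
  refine Finset.prod_congr rfl fun b _ => ?_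
  rw [hv, map_mul, map_prod]
  congr 1
  exact Finset.prod_congr rfl fun b' _ => twist_twist _ _ _

variable {F₀ : IntermediateField ℚ (LaurentSeries ℚ)}

/-- **`T_ℓ T_ℓ' = T_ℓ' T_ℓ`.** -/
theorem HeckeOp1_T_comm {ℓ ℓ' : ℕ} [NeZero ℓ] [NeZero ℓ'] (hc : Nat.Coprime ℓ ℓ')
    (H : HeckeOp1 F₀ ℓ) (H' : HeckeOp1 F₀ ℓ') (hDD : ∀ u, H.D (H'.D u) = H'.D (H.D u))
    (hDT : ∀ u, H.D (H'.T u) = H'.T (H.D u)) (hDT' : ∀ u, H'.D (H.T u) = H.T (H'.D u))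
    (u : FB F₀) : H.T (H'.T u) = H'.T (H.T u) := by
  apply Subtype.ext
  apply qExpand_injective' (R := Kbar) ℓ
  apply qExpand_injective' (R := Kbar) ℓ'
  have hz : zetaK ℓ ^ ℓ = 1 := (isPrimitiveRoot_zetaK ℓ).pow_eq_one
  have hz' : zetaK ℓ' ^ ℓ' = 1 := (isPrimitiveRoot_zetaK ℓ').pow_eq_one
  have h1 := key1 hc (zetaK ℓ) (zetaK ℓ') hz (u : LaurentSeries Kbar) _ _ _ _ _ _
    (H'.qExpand_T u) (by rw [hDT]; exact H'.qExpand_T (H.D u)) (H.qExpand_T (H'.T u))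
  have h2 := key1 hc.symm (zetaK ℓ') (zetaK ℓ) hz' (u : LaurentSeries Kbar) _ _ _ _ _ _
    (H.qExpand_T u) (by rw [hDT']; exact H.qExpand_T (H'.D u)) (H'.qExpand_T (H.T u))
  rw [h1, qExpand_comm ℓ' ℓ, h2, qExpand_comm (ℓ * ℓ) (ℓ' * ℓ'), hDD,
    prod_twist_qExpand (Nat.Coprime.mul_left hc.symm hc.symm) (zetaK ℓ) hz,
    prod_twist_qExpand (Nat.Coprime.mul_left hc hc) (zetaK ℓ') hz', Finset.prod_comm]
  have h3 : ∀ b' ∈ Finset.range ℓ', ∀ b ∈ Finset.range ℓ,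
      twist (zetaK ℓ ^ b * zetaK ℓ' ^ b') (u : LaurentSeries Kbar) =
        twist (zetaK ℓ' ^ b' * zetaK ℓ ^ b) (u : LaurentSeries Kbar) := fun b' _ b _ => by
    rw [mul_comm]
  rw [Finset.prod_congr rfl fun b' hb' => Finset.prod_congr rfl (h3 b' hb')]
  ring

theorem HeckeOp1_commute_TW_TW {ℓ ℓ' : ℕ} [NeZero ℓ] [NeZero ℓ'] (hc : Nat.Coprime ℓ ℓ')
    (H : HeckeOp1 F₀ ℓ) (H' : HeckeOp1 F₀ ℓ') (hDD : ∀ u, H.D (H'.D u) = H'.D (H.D u))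
    (hDT : ∀ u, H.D (H'.T u) = H'.T (H.D u)) (hDT' : ∀ u, H'.D (H.T u) = H.T (H'.D u)) (n : ℕ) :
    Commute (H.TW n) (H'.TW n) := by
  refine AddMonoidHom.ext fun x => ?_
  obtain ⟨u, rfl⟩ := cls_surjective x
  show H.TW n (H'.TW n (cls u)) = H'.TW n (H.TW n (cls u))
  rw [H'.TW_cls, H.TW_cls, H.TW_cls, H'.TW_cls]
  refine congrArg cls (Subtype.ext (Units.ext ?_))
  exact HeckeOp1_T_comm hc H H' hDD hDT hDT' _

/-- an automorphism which commutes with `T` commutes with `TW` -/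
theorem HeckeOp1_commute_TW_autW {ℓ : ℕ} [NeZero ℓ] (H : HeckeOp1 F₀ ℓ)
    (D : FB F₀ ≃ₐ[Kbar] FB F₀) (hD : ∀ u, D (H.T u) = H.T (D u)) (n : ℕ) :
    Commute (H.TW n) (autW D n) := by
  refine AddMonoidHom.ext fun x => ?_
  obtain ⟨u, rfl⟩ := cls_surjective x
  show H.TW n (autW D n (cls u)) = autW D n (H.TW n (cls u))
  rw [autW_cls, H.TW_cls, H.TW_cls, autW_cls]
  refine congrArg cls (Subtype.ext (Units.ext ?_))
  exact (hD _).symm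

end Fermat.Agent.S43.Ops.Rel

end
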