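/-
Row 37 (S43), block OPS (architect helper297), sub-block REL (helper184): THE RELATIONS FOR THE CONCRETE OPERATORS
on `FB (F1Q q M)` and on `W1 (F1Q q M) n`:  `dia q M d` (helper297), `heckeOpT q M hl hlN` (helper84),
`uOp1 q M` (helper33, helper47), `w hc` (helper297).
* `dia_T`, `dia_U`          : diamonds commute with `T_l`, `U_q`;
* `T_T`, `U_T`              : `T_l T_l' = T_l' T_l` (`l ≠ l'`), `U_q T_l = T_l U_q`;
* `w_T_w`, `w_T`            : `w T_l w = T_l ⟨l⟩⁻¹`, `w T_l = T_l ⟨l⟩⁻¹ w`... (precise forms below);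
* the same on the Kummer modules (`commute_…`, `wW_TW`).
-/
import Fermat.Agent.S43.Ops.Rel.Main
import Fermat.Agent.S43.Ops.Rel.TComm
import Fermat.Agent.S43.Ops.W.Defs
import Fermat.Agent.S43.Ops.Uq.Inst
import Fermat.Agent.S43.Ops.T.DiaBridge

set_option autoImplicit false
set_option linter.unusedSectionVars false

noncomputable section

namespace Fermat.Agent.S43.Ops.Rel

open ModularCurve UpperHalfPlane Matrix.SpecialLinearGroup CongruenceSubgroup ModularForm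
open Fermat.Agent.S24 Fermat.Agent.GAL.Mult Fermat.Agent.S48.A Fermat.Agent.S48.BB
open Fermat.Agent.S48.BB.U Fermat.Agent.S48.BB.H Fermat.Agent.S48.BB.T Fermat.Agent.Lib.HeckeHom
open Fermat.Agent.S48.BB.M Fermat.Agent.S48.BB.E Fermat.Agent.S43.Ops.Uq
open scoped MatrixGroups OnePoint

/-! ### a complement on Atkin-Lehner matrices: `adj W ~ W` -/

theorem eqv_al_adj {q M : ℕ} {H : Subgroup SL(2, ℤ)} (hle : H1 q M ≤ H) {x y z t : ℤ}
    {g g' : GL(2, ℝ)⁺} (hW : (q : ℤ) * x * t - M * y * z = 1)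
    (hg : IsI g (alMat q M x y z t)) (hg' : IsI g' (alMat q M t (-y) (-z) x)) : Eqv H g' g := by
  have hdet : (!![M * y * z + (q : ℤ) * t * t, -(y * (x + t)); -((q : ℤ) * M * (z * (x + t))),
      (q : ℤ) * x * x + M * y * z] : IM).det = 1 := by
    rw [Matrix.det_fin_two_of]
    linear_combination ((q : ℤ) * x * t - M * y * z + 1) * hW
  have hmem : (⟨_, hdet⟩ : SL(2, ℤ)) ∈ H1 q M := by
    refine Rel.mem_H1_iff'.2 ⟨?_, Or.inr ?_⟩
    · show ((q * M : ℕ) : ℤ) ∣ -((q : ℤ) * M * (z * (x + t)))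
      push_cast
      exact (Dvd.intro _ rfl).neg_right
    · show (((q : ℤ) * x * x + M * y * z : ℤ) : ZMod q) = -1
      have := congrArg (Int.cast : ℤ → ZMod q) hW
      push_cast at this ⊢
      simp only [ZMod.natCast_self] at this ⊢
      linear_combination -this
  refine Eqv.mono hle (IsI.eqv hg' hg hmem one_ne_zero one_ne_zero ?_)
  rw [one_smul, one_smul]
  unfold alMat
  ext i k
  fin_cases i <;> fin_cases k <;> simp [Matrix.mul_apply, Fin.sum_univ_two]
  · linear_combination (-(q : ℤ) * t) * hW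
  · linear_combination y * hW
  · linear_combination ((q : ℤ) * M * z) * hW
  · linear_combination (-(q : ℤ) * x) * hW

variable (q M : ℕ) [NeZero q] [NeZero M] {l : ℕ} [NeZero l]

/-! ### the representations -/

theorem isRep_heckeOpT (hl : l.Prime) (hlN : ¬ l ∣ q * M) :
    IsRep (hL1 q M) (heckeOpT q M hl hlN).T (aT l (sig (q * M) (l : ZMod (q * M)))) :=
  real_heckeOpT q M hl hlN

theorem dd_sig_left (hl : l.Prime) (hlN : ¬ l ∣ q * M) :
    dd q (sig (q * M) (l : ZMod (q * M))) = (l : ZMod q) :=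
  dd_left_eq_natCast (dd_sig (isUnit_natCast_of_prime (q * M) hl hlN))

omit [NeZero M] in
theorem val_finEquiv (j : Fin q) : (ZMod.finEquiv q j).val = j := by
  cases q with
  | zero => exact absurd rfl (NeZero.ne 0)
  | succ n => rfl

theorem isRep_uOp1' : IsRep (hL1 q M) (uOp1 q M).U (aU q) := by
  refine (isRep_uOp1 q M).congr (ZMod.finEquiv q).toEquiv fun j => ?_
  have : uqA q j = aU q ((ZMod.finEquiv q).toEquiv j) := by
    apply Subtype.ext
    show heckeMatrix q j = heckeMatrix q ((ZMod.finEquiv q j).val)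
    rw [val_finEquiv]
  rw [this]
  exact Eqv.refl _ _

theorem isI_wG (hc : Nat.Coprime q M) : IsI (wG hc) (alMat q M (wx q M) (wy q M) 1 1) := by
  have h : alMat q M (wx q M) (wy q M) 1 1 = wMat q M := by
    simp [alMat, wMat]
  rw [h]
  exact coe_glI _ _

variable {q M}

theorem wxy' (hc : Nat.Coprime q M) : (q : ℤ) * wx q M * 1 - M * wy q M * 1 = 1 := by
  linear_combination wxy hc

/-! ### relations on the function field -/

/-- diamonds commute with `T_l` -/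
theorem dia_T (hl : l.Prime) (hlN : ¬ l ∣ q * M) (d : (ZMod q)ˣ) (u : FB (F1Q q M)) :
    dia q M d ((heckeOpT q M hl hlN).T u) = (heckeOpT q M hl hlN).T (dia q M d u) :=
  dia_T_comm le_rfl hl hlN (sig_mem _ _) (dd_sig_left q M hl hlN) (sg_mem q M d)
    (isRep_heckeOpT q M hl hlN) (fun u => real_dia_of d (sg_mem q M d) (dd_sg q M d) u) u

/-- diamonds commute with `U_q` -/
theorem dia_U (d : (ZMod q)ˣ) (u : FB (F1Q q M)) :
    dia q M d ((uOp1 q M).U u) = (uOp1 q M).U (dia q M d u) :=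
  dia_U_comm le_rfl (sg_mem q M d) (isRep_uOp1' q M)
    (fun u => real_dia_of d (sg_mem q M d) (dd_sg q M d) u) u

/-- `U_q T_l = T_l U_q` -/
theorem U_T (hl : l.Prime) (hlN : ¬ l ∣ q * M) (u : FB (F1Q q M)) :
    (uOp1 q M).U ((heckeOpT q M hl hlN).T u) = (heckeOpT q M hl hlN).T ((uOp1 q M).U u) :=
  UOp_U_comm_T (uOp1 q M) (coprime_left_of_not_dvd_mul q M hl hlN) _
    (fun u => by rw [heckeOpT_D_eq_dia]; exact dia_U _ u) u

/-- `T_l T_l' = T_l' T_l` -/
theorem T_T {l' : ℕ} [NeZero l'] (hl : l.Prime) (hlN : ¬ l ∣ q * M) (hl' : l'.Prime)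
    (hlN' : ¬ l' ∣ q * M) (hne : l ≠ l') (u : FB (F1Q q M)) :
    (heckeOpT q M hl hlN).T ((heckeOpT q M hl' hlN').T u) =
      (heckeOpT q M hl' hlN').T ((heckeOpT q M hl hlN).T u) :=
  HeckeOp1_T_comm ((Nat.coprime_primes hl hl').2 hne) _ _
    (fun u => by
      rw [heckeOpT_D_eq_dia, heckeOpT_D_eq_dia, ← AlgEquiv.mul_apply, ← AlgEquiv.mul_apply,
        ← map_mul, ← map_mul, mul_comm])
    (fun u => by rw [heckeOpT_D_eq_dia]; exact dia_T hl' hlN' _ u)
    (fun u => by rw [heckeOpT_D_eq_dia]; exact dia_T hl hlN _ u) u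

/-- `w T_l w = T_l ⟨l⟩⁻¹` -/
theorem w_T_w (hc : Nat.Coprime q M) (hl : l.Prime) (hlN : ¬ l ∣ q * M) (u : FB (F1Q q M)) :
    w hc ((heckeOpT q M hl hlN).T (w hc u)) =
      (heckeOpT q M hl hlN).T (dia q M (unitL q M hl hlN)⁻¹ u) := by
  have hdet : 0 < (alMat q M 1 (-wy q M) (-1) (wx q M)).det := by
    rw [det_alMat q M (by linear_combination wxy hc)]
    exact_mod_cast Nat.pos_of_ne_zero (NeZero.ne q)
  have hg' : IsI (glI _ hdet) (alMat q M 1 (-wy q M) (-1) (wx q M)) := coe_glI _ _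
  refine al_T (hL := hL1 q M) le_rfl (wxy' hc) (isI_wG q M hc) hg'
    (nrm_alMat (wxy' hc) (isI_wG q M hc)) hl hlN (sig_mem _ _) (dd_sig_left q M hl hlN)
    (sg_mem q M (unitL q M hl hlN)⁻¹) ?_ (isRep_heckeOpT q M hl hlN) (real_w hc) ?_
    (fun u => real_dia_of _ (sg_mem q M _) (dd_sg q M _) u) u
  · rw [dd_sg, ← coe_unitL q M hl hlN, Units.inv_mul]
  · intro u
    rw [real_w]
    exact ((eqv_al_adj le_rfl (wxy' hc) (isI_wG q M hc) hg').smul_real (hL1 q M) u).symm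

/-- `T_l w = w T_l ⟨l⟩⁻¹` -/
theorem T_w (hc : Nat.Coprime q M) (hl : l.Prime) (hlN : ¬ l ∣ q * M) (u : FB (F1Q q M)) :
    (heckeOpT q M hl hlN).T (w hc u) =
      w hc ((heckeOpT q M hl hlN).T (dia q M (unitL q M hl hlN)⁻¹ u)) := by
  rw [← w_T_w hc hl hlN u, w_w]

/-! ### relations on the Kummer modules -/

theorem commute_TW_diaW (hl : l.Prime) (hlN : ¬ l ∣ q * M) (d : (ZMod q)ˣ) (n : ℕ) :
    Commute ((heckeOpT q M hl hlN).TW n) (autW (dia q M d) n) :=
  HeckeOp1_commute_TW_autW _ _ (dia_T hl hlN d) n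

theorem commute_UW_diaW (d : (ZMod q)ˣ) (n : ℕ) :
    Commute ((uOp1 q M).UW n) (autW (dia q M d) n) :=
  UOp_commute_UW_autW _ _ (dia_U d) n

theorem commute_UW_TW (hl : l.Prime) (hlN : ¬ l ∣ q * M) (n : ℕ) :
    Commute ((uOp1 q M).UW n) ((heckeOpT q M hl hlN).TW n) :=
  UOp_commute_UW_TW (uOp1 q M) (coprime_left_of_not_dvd_mul q M hl hlN) _
    (fun u => by rw [heckeOpT_D_eq_dia]; exact dia_U _ u) n

theorem commute_TW_TW {l' : ℕ} [NeZero l'] (hl : l.Prime) (hlN : ¬ l ∣ q * M) (hl' : l'.Prime)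
    (hlN' : ¬ l' ∣ q * M) (n : ℕ) :
    Commute ((heckeOpT q M hl hlN).TW n) ((heckeOpT q M hl' hlN').TW n) := by
  by_cases hne : l = l'
  · subst hne
    exact Commute.refl _
  · refine AddMonoidHom.ext fun x => ?_
    obtain ⟨u, rfl⟩ := cls_surjective x
    show (heckeOpT q M hl hlN).TW n ((heckeOpT q M hl' hlN').TW n (cls u)) =
      (heckeOpT q M hl' hlN').TW n ((heckeOpT q M hl hlN).TW n (cls u))
    rw [HeckeOp1.TW_cls, HeckeOp1.TW_cls, HeckeOp1.TW_cls, HeckeOp1.TW_cls]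
    refine congrArg cls (Subtype.ext (Units.ext ?_))
    exact T_T hl hlN hl' hlN' hne _

/-- `T_l w = w T_l ⟨l⟩⁻¹` on the Kummer module -/
theorem TW_wW (hc : Nat.Coprime q M) (hl : l.Prime) (hlN : ¬ l ∣ q * M) (n : ℕ)
    (x : W1 (F1Q q M) n) :
    (heckeOpT q M hl hlN).TW n (autW (w hc) n x) =
      autW (w hc) n ((heckeOpT q M hl hlN).TW n (autW (dia q M (unitL q M hl hlN)⁻¹) n x)) := by
  obtain ⟨u, rfl⟩ := cls_surjective x
  rw [autW_cls, HeckeOp1.TW_cls, autW_cls, HeckeOp1.TW_cls, autW_cls]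
  refine congrArg cls (Subtype.ext (Units.ext ?_))
  exact T_w hc hl hlN _

end Fermat.Agent.S43.Ops.Rel

end
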