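/-
Row 37 (S43), block OPS (architect helper297), sub-block REL (helper211): THE ABSTRACT RELATIONS.

On a Kummer module `W` the Eichler-Shimura relation `Fr² - T Fr + l D = 0` (`Fr = ρ(Frob_l)` invertible) gives
`T = Fr + l D Fr⁻¹`.  Hence, WITHOUT any coset bookkeeping:
* `commute_T`  : every operator which commutes with `Fr`, `Fr⁻¹` and the diamond `D = ⟨l⟩` commutes with `T_l`
                 (so `T_l` commutes with `T_l'`, `U_q`, the diamonds, `π^* π_*` ...);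
* `twist_T`    : if `ρ(s) w = w ⟨ε(s)⟩⁻¹ ρ(s)` and `⟨d⟩ w = w ⟨d⟩⁻¹` then `T_l w = w ⟨l⟩⁻¹ T_l`;
* `intertwine_T` : a map between two Kummer modules which intertwines `Fr`, `Fr⁻¹`, `D` intertwines `T_l`
                 (`π^*`, `π_*`).
Mathlib only.
-/
import Mathlib

set_option autoImplicit false

namespace Fermat.Agent.S43.Ops.Rel.Abs

variable {W W' : Type*} [AddCommGroup W] [AddCommGroup W']

/-- Eichler-Shimura, solved for `T`. -/
theorem T_eq {Fr Fi T D : AddMonoid.End W} {l : ℕ} (h1 : ∀ v, Fr (Fi v) = v)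
    (hES : ∀ v, Fr (Fr v) - T (Fr v) + l • D v = 0) (v : W) : T v = Fr v + l • D (Fi v) := by
  have h := hES (Fi v)
  rw [h1, sub_add_eq_add_sub, sub_eq_zero] at h
  exact h.symm

/-- a map which intertwines `Fr`, `Fr⁻¹` and `D` intertwines `T`. -/
theorem intertwine_T {Fr Fi T D : AddMonoid.End W} {Fr' Fi' T' D' : AddMonoid.End W'} {l : ℕ}
    (h1 : ∀ v, Fr (Fi v) = v) (hES : ∀ v, Fr (Fr v) - T (Fr v) + l • D v = 0)
    (h1' : ∀ v, Fr' (Fi' v) = v) (hES' : ∀ v, Fr' (Fr' v) - T' (Fr' v) + l • D' v = 0)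
    (X : W →+ W') (hF : ∀ v, X (Fr v) = Fr' (X v)) (hFi : ∀ v, X (Fi v) = Fi' (X v))
    (hD : ∀ v, X (D v) = D' (X v)) (v : W) : X (T v) = T' (X v) := by
  rw [T_eq h1 hES, T_eq h1' hES', map_add, map_nsmul, hF, hD, hFi]

/-- an operator which commutes with `Fr`, `Fr⁻¹` and `D` commutes with `T`. -/
theorem commute_T {Fr Fi T D X : AddMonoid.End W} {l : ℕ} (h1 : ∀ v, Fr (Fi v) = v)
    (hES : ∀ v, Fr (Fr v) - T (Fr v) + l • D v = 0) (hF : Commute X Fr) (hFi : Commute X Fi)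
    (hD : Commute X D) : Commute X T :=
  AddMonoidHom.ext fun v => intertwine_T h1 hES h1 hES X (DFunLike.congr_fun hF)
    (DFunLike.congr_fun hFi) (DFunLike.congr_fun hD) v

/-- `T_l w = w ⟨l⟩⁻¹ T_l` from the Galois twist of `w`. -/
theorem twist_T {Fr Fi T D Di w : AddMonoid.End W} {l : ℕ} (h1 : ∀ v, Fr (Fi v) = v)
    (hES : ∀ v, Fr (Fr v) - T (Fr v) + l • D v = 0) (hDi : ∀ v, Di (D v) = v)
    (hwF : ∀ v, Fr (w v) = w (Di (Fr v))) (hwFi : ∀ v, Fi (w v) = w (D (Fi v)))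
    (hwD : ∀ v, D (w v) = w (Di v)) (v : W) : T (w v) = w (Di (T v)) := by
  rw [T_eq h1 hES, T_eq h1 hES v, hwF, hwFi, hwD, hDi, map_add, map_add, map_nsmul, map_nsmul, hDi]

/-- the relation for `Fr⁻¹` follows from the relation for `Fr`. -/
theorem twist_inv {Fr Fi D Di w : AddMonoid.End W} (h1 : ∀ v, Fr (Fi v) = v)
    (h2 : ∀ v, Fi (Fr v) = v) (hDi : ∀ v, Di (D v) = v) (hDF : ∀ v, D (Fi v) = Fi (D v))
    (hwF : ∀ v, Fr (w v) = w (Di (Fr v))) (v : W) : Fi (w v) = w (D (Fi v)) := by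
  have h := hwF (D (Fi v))
  rw [hDF, h1, hDi] at h
  rw [hDF, ← h, h2]

end Fermat.Agent.S43.Ops.Rel.Abs
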